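import Fermat.Agent.H70.SS.RatPlace
import Fermat.Agent.H58.RR.Modular
import Fermat.Agent.H29.ResidueConst

/-!
# P-SS / SSH-12 (row 653), part 2 : rational support for `X₀(N)` (helper70)

`exists_field_rational_support_modular` : for `f ≠ 0` in the function field of `X₀(N)` over `ℚ̄`
there is a number field `K₀` such that over every intermediate field `K ⊇ K₀` all places of the
model field `F_K` at which (a descent of) `f` has nonzero order are `K`-rational.
Instance of `exists_field_rational_support` (all places of `ℚ̄(X₀(N))` have degree one, the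
support of a principal divisor is finite).
-/

set_option autoImplicit false
set_option linter.style.haveILetI false

noncomputable section

namespace Fermat.Agent.H70.SS

open ModularCurve AlgebraicCurve Fermat.Agent.H93.KL

/-- Every place of `ℚ̄(X₀(N))` has degree one. -/
theorem ss_deg_eq_one_bar (N : ℕ) [NeZero N]
    (v : Place QBar ↥(modularFunctionFieldBar N)) : v.deg = 1 := by
  haveI := (Fermat.Agent.H23.degreeStatement_holds N).2.1
  exact Fermat.Agent.H29.place_deg_eq_one (y := Fermat.Agent.H23.jBar N) v

/-- The support of a principal divisor of `ℚ̄(X₀(N))` is finite. -/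
theorem ss_finite_support (N : ℕ) [NeZero N] (f : ↥(modularFunctionFieldBar N)) (hf : f ≠ 0) :
    {P : Place QBar ↥(modularFunctionFieldBar N) | P.ord f ≠ 0}.Finite := by
  obtain ⟨D, hD, -⟩ :=
    (Fermat.Agent.H58.hasPrincipalDivisors_modularFunctionFieldBar N).exists_divisor f hf
  refine (Set.Finite.subset (Finset.finite_toSet D.support) fun P hP => ?_)
  rw [Finset.mem_coe, Finsupp.mem_support_iff, hD]
  exact hP

/-- **Rational support after a finite extension**, for `X₀(N)`. -/
theorem exists_field_rational_support_modular (N : ℕ) [NeZero N]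
    (f : ↥(modularFunctionFieldBar N)) (hf : f ≠ 0) :
    ∃ K₀ : IntermediateField ℚ QBar, FiniteDimensional ℚ ↥K₀ ∧
      ∀ K : IntermediateField ℚ QBar, K₀ ≤ K →
        ∀ f₁ : ↥(laurentBaseChange ↥K (modularFunctionFieldFull N)),
          klBc (algebraMap ↥K QBar) (modularFunctionFieldFull N) f₁ = f →
          ∀ P₁ : Place ↥K ↥(laurentBaseChange ↥K (modularFunctionFieldFull N)),
            P₁.ord f₁ ≠ 0 →
            ∀ z ∈ P₁.toValuationSubring,
              ∃ c : ↥K, z - algebraMap ↥K
                  ↥(laurentBaseChange ↥K (modularFunctionFieldFull N)) c ∈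
                P₁.toValuationSubring.nonunits :=
  exists_field_rational_support (modularFunctionFieldFull N) (ss_deg_eq_one_bar N) f
    (ss_finite_support N f hf)

end Fermat.Agent.H70.SS
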