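import Fermat.Agent.H70.SS.Asm
import Fermat.Agent.H58.KL.ModelTr
import Fermat.Agent.H27.KLGB.Model

/-!
# P-SS / SSH-12 (row 653) : the assembly in the chart `x = j` (helper70)

`secondDifference_of_model_j` : for the coordinate `x₀ = jq` the transcendence and finiteness
inputs are theorems (helper58, helper27), so that
`KlssAbsStatement → ModelSecondDiffStatement N q jq → SecondDifferenceStatement N q`.
-/

set_option autoImplicit false

noncomputable section

namespace Fermat.Agent.H70.SS

open ModularCurve AlgebraicCurve Fermat.Agent.H22.KL Fermat.Agent.H45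

/-- `jq ∈ F_N`. -/
theorem jq_mem_full_ss (N : ℕ) [NeZero N] : jq ∈ modularFunctionFieldFull N := by
  have h := jqd_mem_full N (one_dvd N)
  rwa [qExpand_one_apply] at h

/-- The model field is finite over the chart field of `x = j` (any `A₀` with fraction field
`K₁`). -/
theorem modelFinite_jq (N : ℕ) [NeZero N] : ModelFiniteStatement N jq := by
  intro K₁ _ _ A₀ _ _ _ _ _ _ x hx
  obtain ⟨ℓ, hℓN, hℓ⟩ := Nat.exists_infinite_primes (N + 1)
  haveI : Fact ℓ.Prime := ⟨hℓ⟩
  have hN0 : 0 < N := Nat.pos_of_ne_zero (NeZero.ne N)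
  have hnd : ¬ ℓ ∣ N := fun hd => by
    have := Nat.le_of_dvd hN0 hd
    omega
  obtain ⟨θ, P, -, hPm, hPnat, hPθ, -, -, -, hall⟩ :=
    Fermat.Agent.H27.KLGB.goodPrimitive_j_full N ℓ hnd
  obtain ⟨-, b, -⟩ := Fermat.Agent.H27.KLGB.model_basis_pow N hPm hPnat hPθ hall K₁ A₀ x hx
  exact ⟨_, ⟨b⟩⟩

/-- **SSH-12 in the chart `x = j`**. -/
theorem secondDifference_of_model_j (N q : ℕ) [NeZero N] (hq : q.Prime)
    (hAbs : KlssAbsStatement) (hIn : ModelSecondDiffStatement N q jq) :
    SecondDifferenceStatement N q :=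
  secondDifference_of_model N q hq jq (jq_mem_full_ss N) hAbs
    (Fermat.Agent.H58.modelTranscendental_jq N) (modelFinite_jq N) hIn

/-- The same with the two model inputs split (rows SSH-5 and SSH-1/6..11). -/
theorem secondDifference_of_split_j (N q : ℕ) [NeZero N] (hq : q.Prime)
    (hAbs : KlssAbsStatement) (h₁ : ModelGaussSDStatement N q jq)
    (h₂ : ModelLocalPrincStatement N q jq) : SecondDifferenceStatement N q :=
  secondDifference_of_model_j N q hq hAbs (modelSecondDiff_of_split h₁ h₂)

end Fermat.Agent.H70.SS
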