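import Fermat.Agent.H70.SS.DescentGen
import Fermat.Agent.H70.SS.AsmJ
import Fermat.Agent.H7.SS.GaussSDFinal
import Fermat.Agent.H57.SS.ModelFinite

/-!
# P-SS / SSH-12 (row 653), part 3 : the second difference statement from the local
principalisation alone (helper70)

All the other inputs of helper82's model-level assembly `H82.SS.modelSecondDiffGen_of` are landed
theorems (chart `x = j`): transcendence (helper58), finiteness (helper57), the Gauss condition
SSH-5 for a prime `q ∤ M` (helper7), roots of Laurent series (helper33), constants of `K₁((q))`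
(helper93).  Hence:

* `modelSecondDiffGen_of_localPrinc` : `ModelLocalPrincStatement M q jq →
  ModelSecondDiffGenStatement M q`;
* `secondDifference_of_localPrinc_mul` : `ModelLocalPrincStatement M q jq →
  SecondDifferenceStatement (M * q) q`;
* `secondDifference_of_modelGen_exact`, `secondDifference_of_localPrinc` : the same at a level
  `N` with `q ∥ N` (the shape consumed by `H45.unipotentTorsion_of_secondDifference`).
-/

set_option autoImplicit false
set_option linter.style.haveILetI false

noncomputable section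

namespace Fermat.Agent.H70.SS

open ModularCurve AlgebraicCurve Fermat.Agent.H22.KL Fermat.Agent.H45

/-- The model-level second difference statement from the local principalisation. -/
theorem modelSecondDiffGen_of_localPrinc (M q : ℕ) [NeZero M] [NeZero q] (hq : q.Prime)
    (hqM : ¬ q ∣ M) (hLP : Fermat.Agent.H82.SS.ModelLocalPrincStatement M q jq) :
    Fermat.Agent.H82.SS.ModelSecondDiffGenStatement M q :=
  Fermat.Agent.H82.SS.modelSecondDiffGen_of M q jq (jq_mem_full_ss (M * q))
    (Fermat.Agent.H58.modelTranscendental_jq (M * q))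
    (Fermat.Agent.H57.SS.modelFinite (M * q))
    (Fermat.Agent.H7.SS.modelGaussSD_prime M q hq hqM) hLP
    Fermat.Agent.H33.KLM.modelRoot Fermat.Agent.H93.KL.modelConst

/-- The second difference statement at level `M q` from the local principalisation. -/
theorem secondDifference_of_localPrinc_mul (M q : ℕ) [NeZero M] [NeZero q] (hq : q.Prime)
    (hqM : ¬ q ∣ M) (hLP : Fermat.Agent.H82.SS.ModelLocalPrincStatement M q jq) :
    SecondDifferenceStatement (M * q) q :=
  secondDifference_of_modelGen M q hq (modelSecondDiffGen_of_localPrinc M q hq hqM hLP)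

/-- A level `N` with `q ∥ N` is `M q` with `q ∤ M`. -/
theorem exists_level_factor {N q : ℕ} (hN : N ≠ 0) (hqN : q ∣ N) (hq2 : ¬ q ^ 2 ∣ N) :
    ∃ M : ℕ, M ≠ 0 ∧ ¬ q ∣ M ∧ N = M * q := by
  obtain ⟨M, rfl⟩ := hqN
  refine ⟨M, fun h0 => hN (by rw [h0, mul_zero]), fun hd => hq2 ?_, mul_comm q M⟩
  obtain ⟨c, rfl⟩ := hd
  exact ⟨c, by ring⟩

/-- **SSH-12 at a level `N` with `q ∥ N`** (contract form). -/
theorem secondDifference_of_modelGen_exact (N q : ℕ) [NeZero N] (hq : q.Prime) (hqN : q ∣ N)
    (hq2 : ¬ q ^ 2 ∣ N)
    (h : ∀ (M : ℕ) [NeZero M] [NeZero q], ¬ q ∣ M → N = M * q →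
      Fermat.Agent.H82.SS.ModelSecondDiffGenStatement M q) :
    SecondDifferenceStatement N q := by
  obtain ⟨M, hM, hqM, hN⟩ := exists_level_factor (NeZero.ne N) hqN hq2
  haveI : NeZero M := ⟨hM⟩
  haveI : NeZero q := ⟨hq.ne_zero⟩
  have h1 := secondDifference_of_modelGen M q hq (h M hqM hN)
  rw [hN]
  exact h1

/-- **The second difference statement at a level `N` with `q ∥ N`** from the local
principalisation. -/
theorem secondDifference_of_localPrinc (N q : ℕ) [NeZero N] (hq : q.Prime) (hqN : q ∣ N)
    (hq2 : ¬ q ^ 2 ∣ N)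
    (hLP : ∀ (M : ℕ) [NeZero M] [NeZero q], ¬ q ∣ M → N = M * q →
      Fermat.Agent.H82.SS.ModelLocalPrincStatement M q jq) :
    SecondDifferenceStatement N q :=
  secondDifference_of_modelGen_exact N q hq hqN hq2 fun M _ _ hqM hN =>
    modelSecondDiffGen_of_localPrinc M q hq hqM (hLP M hqM hN)

end Fermat.Agent.H70.SS
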