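import Fermat.Agent.H70.SS.DescentFinal
import Fermat.Agent.H45.SS.ModelLP

/-!
# P-SS / SSH-12 (row 653), part 4 : the descent relative to a property of the number field
(helper70)

The geometric rows deliver the local principalisation only over number fields `K₁` with an
additional property `Φ K₁` (containing certain roots of unity:
`H45.SSModelLocalPrincStatement M q x₀ R₁ R₂ R₃`).  Here the model-level assembly and the descent
are redone relative to an arbitrary property `Φ` of the field `K₁` which holds for every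
intermediate field of `ℚ̄ / ℚ` containing a suitable finite set `T`.

* `ModelLocalPrincPropStatement M q x₀ Φ`, `ModelSecondDiffGenPropStatement M q Φ` : the
  statements of helper82's contract with the extra hypothesis `Φ K₁`.
* `modelSecondDiffGenProp_of` : twin of `H82.SS.modelSecondDiffGen_of`.
* `secondDifference_of_modelGenProp` : twin of `secondDifference_of_modelGen`.
* `secondDifference_of_ssLocalPrinc_mul`, `secondDifference_of_ssLocalPrinc` : the second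
  difference statement from `H45.SSModelLocalPrincStatement M q jq R₁ R₂ R₃`.
-/

set_option autoImplicit false
set_option linter.style.haveILetI false

noncomputable section

namespace Fermat.Agent.H70.SS

open Polynomial ModularCurve AlgebraicCurve Fermat.Agent.H22.KL Fermat.Agent.H45
  Fermat.Agent.H93.KL

/-- `H82.SS.ModelLocalPrincStatement` relative to a property `Φ` of the number field. -/
def ModelLocalPrincPropStatement (M q : ℕ) [NeZero M] [NeZero q] (x₀ : LaurentSeries ℚ)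
    (Φ : ∀ (K₁ : Type) [Field K₁], Prop) : Prop :=
  ∀ (K₁ : Type) [Field K₁] [Algebra ℚ K₁] [FiniteDimensional ℚ K₁]
    (A₀ : Type) [CommRing A₀] [IsDomain A₀] [IsDiscreteValuationRing A₀]
    [Algebra A₀ K₁] [IsFractionRing A₀ K₁]
    [Algebra A₀ (ModelField K₁ (M * q))] [IsScalarTower A₀ K₁ (ModelField K₁ (M * q))],
    ¬ IsUnit ((q : ℕ) : A₀) → Φ K₁ →
    ∀ (ϖ : A₀), Irreducible ϖ →
    ∀ (x : ModelField K₁ (M * q)), (x : LaurentSeries K₁) = coeffEmb K₁ x₀ →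
    ∀ (σ₁ : K₁ ≃ₐ[ℚ] K₁), Fermat.Agent.H82.SS.IsModelInertia K₁ A₀ σ₁ →
    ∀ (r : ℕ), 0 < r → IsUnit ((r : ℕ) : A₀) →
    ∀ f : ModelField K₁ (M * q), f ≠ 0 →
      (∀ P : Place K₁ (ModelField K₁ (M * q)), (r : ℤ) ∣ P.ord f) →
      (∀ P : Place K₁ (ModelField K₁ (M * q)), P.ord f ≠ 0 →
        Fermat.Agent.H82.SS.IsRationalPlace P) →
      LocalPrinc A₀ (ModelField K₁ (M * q)) ϖ x r
          (Fermat.Agent.H82.SS.secondDiff (Fermat.Agent.H82.SS.modelSigma K₁ (M * q) σ₁) f) ∧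
        LocalPrinc A₀ (ModelField K₁ (M * q)) ϖ x⁻¹ r
          (Fermat.Agent.H82.SS.secondDiff (Fermat.Agent.H82.SS.modelSigma K₁ (M * q) σ₁) f)

/-- `H82.SS.ModelSecondDiffGenStatement` relative to a property `Φ` of the number field. -/
def ModelSecondDiffGenPropStatement (M q : ℕ) [NeZero M] [NeZero q]
    (Φ : ∀ (K₁ : Type) [Field K₁], Prop) : Prop :=
  ∀ (K₁ : Type) [Field K₁] [Algebra ℚ K₁] [FiniteDimensional ℚ K₁]
    (A₀ : Type) [CommRing A₀] [IsDomain A₀] [IsDiscreteValuationRing A₀]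
    [Algebra A₀ K₁] [IsFractionRing A₀ K₁]
    [Algebra A₀ (ModelField K₁ (M * q))] [IsScalarTower A₀ K₁ (ModelField K₁ (M * q))],
    ¬ IsUnit ((q : ℕ) : A₀) → Φ K₁ →
    ∀ (σ₁ : K₁ ≃ₐ[ℚ] K₁), Fermat.Agent.H82.SS.IsModelInertia K₁ A₀ σ₁ →
    ∀ (m : ℕ), 0 < m → IsUnit ((m : ℕ) : A₀) → (∃ ζ : K₁, IsPrimitiveRoot ζ m) →
    ∀ f : ModelField K₁ (M * q), f ≠ 0 →
      (∀ P : Place K₁ (ModelField K₁ (M * q)), (m : ℤ) ∣ P.ord f) →
      (∀ P : Place K₁ (ModelField K₁ (M * q)), P.ord f ≠ 0 →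
        Fermat.Agent.H82.SS.IsRationalPlace P) →
      (∃ γ : K₁, γ ^ m =
        ((Fermat.Agent.H82.SS.secondDiff (Fermat.Agent.H82.SS.modelSigma K₁ (M * q) σ₁) f :
          ModelField K₁ (M * q)) : LaurentSeries K₁).leadingCoeff) →
      ∃ w : ModelField K₁ (M * q),
        w ^ m = Fermat.Agent.H82.SS.secondDiff (Fermat.Agent.H82.SS.modelSigma K₁ (M * q) σ₁) f

/-- **Model-level assembly relative to `Φ`** (twin of `H82.SS.modelSecondDiffGen_of`). -/
theorem modelSecondDiffGenProp_of (M q : ℕ) [NeZero M] [NeZero q] (x₀ : LaurentSeries ℚ)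
    (hx₀ : x₀ ∈ modularFunctionFieldFull (M * q))
    (hTr : ModelTranscendentalStatement (M * q) x₀)
    (hFin : Fermat.Agent.H82.SS.ModelFiniteStatement (M * q) x₀)
    (hSD : Fermat.Agent.H82.SS.ModelGaussSDStatement M q x₀)
    (Φ : ∀ (K₁ : Type) [Field K₁], Prop)
    (hLP : ModelLocalPrincPropStatement M q x₀ Φ)
    (hRoot : ModelRootStatement) (hConst : ModelConstStatement) :
    ModelSecondDiffGenPropStatement M q Φ := by
  intro K₁ _ _ _ A₀ _ _ _ _ _ _ _ hq hΦ σ₁ hσ₁ m hm hmA hζm f hf hord hrat hγ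
  classical
  -- the coordinate
  let x : ModelField K₁ (M * q) := ⟨coeffEmb K₁ x₀, coeffEmb_mem_laurentBaseChange K₁ hx₀⟩
  have hx : (x : LaurentSeries K₁) = coeffEmb K₁ x₀ := rfl
  obtain ⟨ϖ, hϖ⟩ := IsDiscreteValuationRing.exists_irreducible A₀
  have hinjK : Function.Injective (algebraMap A₀ K₁) := IsFractionRing.injective A₀ K₁
  -- the instances on `Ω = K₁((q))` (canonical algebra structure over `A₀`)
  have hmapΩ : ∀ c : A₀, algebraMap A₀ (LaurentSeries K₁) c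
      = algebraMap K₁ (LaurentSeries K₁) (algebraMap A₀ K₁ c) := by
    intro c
    simp [HahnSeries.algebraMap_apply', PowerSeries.algebraMap_apply]
  haveI towK := IsScalarTower.of_algebraMap_eq (R := A₀) (S := K₁) (A := LaurentSeries K₁) hmapΩ
  haveI towE := IsScalarTower.of_algebraMap_eq (R := A₀) (S := ModelField K₁ (M * q))
    (A := LaurentSeries K₁) (fun c => by
      rw [hmapΩ, IsScalarTower.algebraMap_apply A₀ K₁ (ModelField K₁ (M * q))]
      rfl)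
  haveI : CharZero K₁ := charZero_of_injective_algebraMap (algebraMap ℚ K₁).injective
  haveI : CharZero (ModelField K₁ (M * q)) :=
    charZero_of_injective_algebraMap (algebraMap K₁ (ModelField K₁ (M * q))).injective
  have hinjE : Function.Injective (algebraMap A₀ (ModelField K₁ (M * q))) := by
    rw [IsScalarTower.algebraMap_eq A₀ K₁ (ModelField K₁ (M * q))]
    exact (algebraMap K₁ (ModelField K₁ (M * q))).injective.comp hinjK
  have htr : Transcendental A₀ x := hTr K₁ A₀ x hx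
  have hfd := hFin K₁ A₀ x hx
  have hconst : ∀ z : LaurentSeries K₁, IsIntegral A₀ z →
      z ∈ (algebraMap A₀ (LaurentSeries K₁)).range := by
    intro z hz
    have hz1 : IsAlgebraic K₁ z := (hz.tower_top (A := K₁)).isAlgebraic
    obtain ⟨c, rfl⟩ := hConst K₁ z hz1
    have hc : IsIntegral A₀ c :=
      (isIntegral_algebraMap_iff (algebraMap K₁ (LaurentSeries K₁)).injective).mp hz
    obtain ⟨d, rfl⟩ := IsIntegrallyClosed.isIntegral_iff.mp hc
    exact ⟨d, hmapΩ d⟩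
  -- the primitive root of unity in `A₀`
  obtain ⟨ζ, hζ⟩ : ∃ ζ : A₀, IsPrimitiveRoot ζ m := by
    obtain ⟨ζ, hζ⟩ := hζm
    have hint : IsIntegral A₀ ζ :=
      ⟨X ^ m - 1, monic_X_pow_sub_C 1 hm.ne', by simp [hζ.pow_eq_one]⟩
    obtain ⟨z, hz⟩ := IsIntegrallyClosed.isIntegral_iff.mp hint
    exact ⟨z, IsPrimitiveRoot.of_map_of_injective (f := algebraMap A₀ K₁) (hz ▸ hζ) hinjK⟩
  -- the Gauss condition and the local principalisation
  obtain ⟨huC, hu1⟩ := hSD K₁ A₀ hq ϖ hϖ x hx σ₁ hσ₁ f hf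
  obtain ⟨hLf, hLi⟩ := hLP K₁ A₀ hq hΦ ϖ hϖ x hx σ₁ hσ₁ m hm hmA f hf hord hrat
  -- the `m`-th root in `Ω`
  obtain ⟨hu0, huo⟩ := Fermat.Agent.H82.SS.ssAsm_order_secondDiff (M * q) σ₁ f hf
  have hroot : ∃ w : LaurentSeries K₁, w ^ m
      = algebraMap (ModelField K₁ (M * q)) (LaurentSeries K₁)
          (Fermat.Agent.H82.SS.secondDiff (Fermat.Agent.H82.SS.modelSigma K₁ (M * q) σ₁) f) := by
    have hdvd : (m : ℤ) ∣
        ((Fermat.Agent.H82.SS.secondDiff (Fermat.Agent.H82.SS.modelSigma K₁ (M * q) σ₁) f :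
          ModelField K₁ (M * q)) : LaurentSeries K₁).order := by
      rw [huo]
      exact dvd_zero _
    exact hRoot K₁ m hm _ hu0 hdvd hγ
  obtain ⟨w₀, hw₀, -⟩ := Fermat.Agent.H45.klssAbs_general A₀ (ModelField K₁ (M * q))
    (LaurentSeries K₁) hinjE ϖ hϖ x htr hfd hconst m hm hmA ζ hζ _ huC hu1 hLf hLi hroot
  exact ⟨w₀, hw₀⟩

/-- **SSH-12, step B, relative to `Φ`.** -/
theorem ssAsm_stepB_prop (M q : ℕ) [NeZero M] [NeZero q] (hq : q.Prime)
    (Φ : ∀ (K₁ : Type) [Field K₁], Prop)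
    (h : ModelSecondDiffGenPropStatement M q Φ)
    (K₁ : Type) [Field K₁] [Algebra ℚ K₁] [FiniteDimensional ℚ K₁] (hΦ : Φ K₁)
    (ι : K₁ →+* QBar)
    (A : ValuationSubring QBar) (hA : A.LiesOverPrime q)
    (σ : QBar ≃ₐ[ℚ] QBar) (hσ : σ ∈ A.inertiaSubgroupIn ℚ)
    (σ₁ : K₁ ≃ₐ[ℚ] K₁) (hσ₁ : ∀ c : K₁, ι (σ₁ c) = σ (ι c))
    (m : ℕ) (hm : 0 < m) (hqm : ¬ q ∣ m) (hζ : ∃ ζ : K₁, IsPrimitiveRoot ζ m)
    (f₁ : ModelField K₁ (M * q)) (hf₁ : f₁ ≠ 0)
    (hord : ∀ P : Place K₁ (ModelField K₁ (M * q)), (m : ℤ) ∣ P.ord f₁)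
    (hrat : ∀ P : Place K₁ (ModelField K₁ (M * q)), P.ord f₁ ≠ 0 →
      Fermat.Agent.H82.SS.IsRationalPlace P)
    (hγ : ∃ γ : K₁, γ ^ m * (σ₁ (f₁ : LaurentSeries K₁).leadingCoeff) ^ 2 =
      σ₁ (σ₁ (f₁ : LaurentSeries K₁).leadingCoeff) * (f₁ : LaurentSeries K₁).leadingCoeff) :
    ∃ w : ModelField K₁ (M * q), w ^ m = modelSecondDiff (M * q) σ₁ f₁ := by
  classical
  haveI hdvr : IsDiscreteValuationRing ↥(A.comap ι) :=
    Fermat.Agent.H34.modelDVR K₁ ι A q hq hA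
  letI algE : Algebra ↥(A.comap ι) (ModelField K₁ (M * q)) :=
    ((algebraMap K₁ (ModelField K₁ (M * q))).comp (algebraMap ↥(A.comap ι) K₁)).toAlgebra
  haveI : IsScalarTower ↥(A.comap ι) K₁ (ModelField K₁ (M * q)) :=
    IsScalarTower.of_algebraMap_eq (fun _ => rfl)
  -- `q` is not a unit
  have hq' : ¬ IsUnit ((q : ℕ) : ↥(A.comap ι)) := by
    have h1 : ((q : ℕ) : ↥(A.comap ι)) = ⟨(q : K₁), by
        rw [ValuationSubring.mem_comap, map_natCast]; exact natCast_mem A q⟩ :=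
      Subtype.ext (by simp)
    rw [h1, isUnit_comap_iff, valuationSubring_isUnit_iff]
    rintro ⟨h0, hinv⟩
    have h2 : ((q : ℕ) : QBar) ∈ A.nonunits := hA
    rw [ValuationSubring.mem_nonunits_iff_exists_mem_maximalIdeal] at h2
    obtain ⟨hmem, hmax⟩ := h2
    rw [IsLocalRing.mem_maximalIdeal, mem_nonunits_iff] at hmax
    apply hmax
    rw [valuationSubring_isUnit_iff]
    refine ⟨?_, ?_⟩
    · simpa using h0
    · simpa using hinv
  -- `m` is a unit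
  have hmA : IsUnit ((m : ℕ) : ↥(A.comap ι)) := by
    by_contra hmu
    have hcop : Nat.Coprime q m := (Nat.Prime.coprime_iff_not_dvd hq).mpr hqm
    have hcopZ : IsCoprime (q : ℤ) (m : ℤ) := Nat.isCoprime_iff_coprime.mpr hcop
    obtain ⟨u, v, huv⟩ := hcopZ
    have h1 : ((q : ℕ) : ↥(A.comap ι)) ∈ IsLocalRing.maximalIdeal ↥(A.comap ι) := by
      rw [IsLocalRing.mem_maximalIdeal, mem_nonunits_iff]; exact hq'
    have h2 : ((m : ℕ) : ↥(A.comap ι)) ∈ IsLocalRing.maximalIdeal ↥(A.comap ι) := by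
      rw [IsLocalRing.mem_maximalIdeal, mem_nonunits_iff]; exact hmu
    have h3 : (1 : ↥(A.comap ι)) ∈ IsLocalRing.maximalIdeal ↥(A.comap ι) := by
      have h4 : ((u : ↥(A.comap ι)) * ((q : ℕ) : ↥(A.comap ι))
          + (v : ↥(A.comap ι)) * ((m : ℕ) : ↥(A.comap ι))) = 1 := by
        have := congrArg (fun z : ℤ => (z : ↥(A.comap ι))) huv
        simpa using this
      rw [← h4]
      exact Ideal.add_mem _ (Ideal.mul_mem_left _ _ h1) (Ideal.mul_mem_left _ _ h2)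
    exact (Ideal.ne_top_iff_one _).mp (IsLocalRing.maximalIdeal.isMaximal _).ne_top h3
  have hfL : (f₁ : LaurentSeries K₁) ≠ 0 := fun h => hf₁ (Subtype.ext h)
  have hl0 : (f₁ : LaurentSeries K₁).leadingCoeff ≠ 0 := HahnSeries.leadingCoeff_ne_zero.mpr hfL
  have hσl0 : σ₁ (f₁ : LaurentSeries K₁).leadingCoeff ≠ 0 := by
    rwa [Ne, EmbeddingLike.map_eq_zero_iff]
  have hγ' : ∃ γ : K₁, γ ^ m =
      ((Fermat.Agent.H82.SS.secondDiff (Fermat.Agent.H82.SS.modelSigma K₁ (M * q) σ₁) f₁ :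
        ModelField K₁ (M * q)) : LaurentSeries K₁).leadingCoeff := by
    obtain ⟨γ, hγ⟩ := hγ
    refine ⟨γ, ?_⟩
    rw [secondDiff_modelSigma]
    have h1 := leadingCoeff_modelSecondDiff (M * q) σ₁ hf₁
    rw [← hγ] at h1
    exact (mul_right_cancel₀ (pow_ne_zero 2 hσl0) h1).symm
  obtain ⟨w, hw⟩ := h K₁ ↥(A.comap ι) hq' hΦ σ₁ (isModelInertia_comap ι A σ hσ σ₁ hσ₁) m hm hmA
    hζ f₁ hf₁ hord hrat hγ'
  exact ⟨w, hw.trans (secondDiff_modelSigma (M * q) σ₁ f₁)⟩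

/-- **SSH-12 relative to `Φ`**: the second difference statement at level `M q` from the
model-level statement over the number fields with property `Φ`, if `Φ` holds for every
intermediate field of `ℚ̄ / ℚ` containing a finite set `T`. -/
theorem secondDifference_of_modelGenProp (M q : ℕ) [NeZero M] [NeZero q] (hq : q.Prime)
    (Φ : ∀ (K₁ : Type) [Field K₁], Prop) (T : Set QBar) (hT : T.Finite)
    (hΦ : ∀ K : IntermediateField ℚ QBar, T ⊆ (K : Set QBar) → Φ ↥K)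
    (h : ModelSecondDiffGenPropStatement M q Φ) :
    SecondDifferenceStatement (M * q) q := by
  classical
  intro A hA σ hσ m hm hqm f hf hord
  -- number-field descent of `f`
  have h1mem : (1 : LaurentSeries QBar) ∈ modularFunctionFieldBar (M * q) := one_mem _
  obtain ⟨K₀, hK₀fin, hD⟩ := klDescent (M * q) (f : LaurentSeries QBar) 1 f.2 h1mem m (by
    intro P
    have e1 : (⟨(1 : LaurentSeries QBar), h1mem⟩ : ↥(modularFunctionFieldBar (M * q))) = 1 := rfl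
    rw [e1, Place.ord_one, sub_zero]
    exact hord P)
  -- the field over which the support of `div f` is rational
  obtain ⟨K₀', hK₀'fin, hR⟩ := exists_field_rational_support_modular (M * q) f hf
  haveI : NeZero ((m : ℕ) : ℚ) := ⟨Nat.cast_ne_zero.mpr hm.ne'⟩
  obtain ⟨ζm, hζm⟩ := HasEnoughRootsOfUnity.exists_primitiveRoot QBar m
  have hfL : (f : LaurentSeries QBar) ≠ 0 := fun h => hf (Subtype.ext h)
  set l₀ : QBar := (f : LaurentSeries QBar).leadingCoeff with hl₀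
  have hl0 : l₀ ≠ 0 := HahnSeries.leadingCoeff_ne_zero.mpr hfL
  have hσl0 : σ l₀ ≠ 0 := by rwa [Ne, EmbeddingLike.map_eq_zero_iff]
  obtain ⟨γ₀, hγ₀⟩ : ∃ γ₀ : QBar, γ₀ ^ m * (σ l₀) ^ 2 = σ (σ l₀) * l₀ := by
    obtain ⟨z, hz⟩ := IsAlgClosed.exists_pow_nat_eq (σ (σ l₀) * l₀ / (σ l₀) ^ 2) hm
    exact ⟨z, by rw [hz, div_mul_cancel₀ _ (pow_ne_zero 2 hσl0)]⟩
  let K' : IntermediateField ℚ QBar :=
    K₀ ⊔ K₀' ⊔ IntermediateField.adjoin ℚ (({ζm, γ₀} : Set QBar) ∪ T)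
  haveI : FiniteDimensional ℚ ↥K₀ := hK₀fin
  haveI : FiniteDimensional ℚ ↥K₀' := hK₀'fin
  have halg : Algebra.IsAlgebraic ℚ QBar := AlgebraicClosure.isAlgebraic ℚ
  haveI : Finite ↥(({ζm, γ₀} : Set QBar) ∪ T) :=
    (((Set.finite_singleton γ₀).insert ζm).union hT).to_subtype
  haveI : FiniteDimensional ℚ ↥(IntermediateField.adjoin ℚ (({ζm, γ₀} : Set QBar) ∪ T)) :=
    IntermediateField.finiteDimensional_adjoin
      (fun x _ => (Algebra.IsAlgebraic.isAlgebraic (R := ℚ) x).isIntegral)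
  haveI : FiniteDimensional ℚ ↥(K₀ ⊔ K₀') := IntermediateField.finiteDimensional_sup _ _
  haveI : FiniteDimensional ℚ ↥K' := IntermediateField.finiteDimensional_sup _ _
  let K : IntermediateField ℚ QBar := IntermediateField.normalClosure ℚ ↥K' QBar
  haveI hcl : IsAlgClosure ℚ (AlgebraicClosure ℚ) := ⟨inferInstance, inferInstance⟩
  haveI hnorm : Normal ℚ (AlgebraicClosure ℚ) := IsAlgClosure.normal ℚ (AlgebraicClosure ℚ)
  haveI : Normal ℚ ↥K := normalClosure.normal ℚ ↥K' QBar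
  haveI : FiniteDimensional ℚ ↥K := normalClosure.is_finiteDimensional ℚ ↥K' QBar
  have hK'K : K' ≤ K := IntermediateField.le_normalClosure K'
  have hrange : ∀ c ∈ K, c ∈ (algebraMap ↥K QBar).range := fun c hc => ⟨⟨c, hc⟩, rfl⟩
  have hadj' : ∀ c ∈ (({ζm, γ₀} : Set QBar) ∪ T), c ∈ K := fun c hc =>
    hK'K ((le_sup_right :
      IntermediateField.adjoin ℚ (({ζm, γ₀} : Set QBar) ∪ T) ≤ K')
      (IntermediateField.subset_adjoin ℚ _ hc))
  have hadj : ∀ c ∈ ({ζm, γ₀} : Set QBar), c ∈ K := fun c hc => hadj' c (Or.inl hc)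
  have hTK : T ⊆ (K : Set QBar) := fun c hc => hadj' c (Or.inr hc)
  have hK₀ : ∀ c ∈ K₀, c ∈ (algebraMap ↥K QBar).range := fun c hc =>
    hrange c (hK'K ((le_sup_left : K₀ ⊔ K₀' ≤ K') ((le_sup_left : K₀ ≤ K₀ ⊔ K₀') hc)))
  have hK₀' : K₀' ≤ K := fun c hc =>
    hK'K ((le_sup_left : K₀ ⊔ K₀' ≤ K') ((le_sup_right : K₀' ≤ K₀ ⊔ K₀') hc))
  -- the restriction of `σ`
  let σ₁ : ↥K ≃ₐ[ℚ] ↥K := σ.restrictNormal ↥K
  have hσ₁ : ∀ c : ↥K, algebraMap ↥K QBar (σ₁ c) = σ (algebraMap ↥K QBar c) := fun c =>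
    AlgEquiv.restrictNormal_commutes σ ↥K c
  -- the descended function
  obtain ⟨a₁, b₁, ha₁, hb₁, haa, hbb, hord₁⟩ := hD ↥K (algebraMap ↥K QBar) hK₀
  have hb1 : b₁ = 1 := by
    have h2 : coeffMap (algebraMap ↥K QBar) (b₁ - 1) = 0 := by
      rw [map_sub, hbb, map_one, sub_self]
    have h3 := (coeffMap_eq_zero_iff (algebraMap ↥K QBar) (algebraMap ↥K QBar).injective _).mp h2
    exact sub_eq_zero.mp h3
  subst hb1
  let f₁ : ModelField ↥K (M * q) := ⟨a₁, ha₁⟩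
  have hf₁f : klBc (algebraMap ↥K QBar) (modularFunctionFieldFull (M * q)) f₁ = f :=
    Subtype.ext haa
  have hf₁0 : f₁ ≠ 0 := by
    intro h0
    apply hf
    rw [← hf₁f, h0, map_zero]
  have hord₁' : ∀ P₁ : Place ↥K (ModelField ↥K (M * q)), (m : ℤ) ∣ P₁.ord f₁ := by
    intro P₁
    have := hord₁ P₁
    have e1 : (⟨(1 : LaurentSeries ↥K), hb₁⟩ :
        ↥(laurentBaseChange ↥K (modularFunctionFieldFull (M * q)))) = 1 := rfl
    rw [e1, Place.ord_one, sub_zero] at this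
    exact this
  have hrat : ∀ P₁ : Place ↥K (ModelField ↥K (M * q)), P₁.ord f₁ ≠ 0 →
      Fermat.Agent.H82.SS.IsRationalPlace P₁ := fun P₁ hP₁ =>
    hR K hK₀' f₁ hf₁f P₁ hP₁
  -- roots of unity and the root of the leading coefficient
  obtain ⟨zm, hzm⟩ := hrange ζm (hadj ζm (by simp))
  obtain ⟨g, hg⟩ := hrange γ₀ (hadj γ₀ (by simp))
  have hzm' : IsPrimitiveRoot zm m :=
    IsPrimitiveRoot.of_map_of_injective (hzm ▸ hζm) (algebraMap ↥K QBar).injective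
  have hlc : algebraMap ↥K QBar (f₁ : LaurentSeries ↥K).leadingCoeff = l₀ := by
    rw [hl₀, ← haa, leadingCoeff_coeffMap _ (algebraMap ↥K QBar).injective]
  have hγ : ∃ γ : ↥K, γ ^ m * (σ₁ (f₁ : LaurentSeries ↥K).leadingCoeff) ^ 2 =
      σ₁ (σ₁ (f₁ : LaurentSeries ↥K).leadingCoeff) * (f₁ : LaurentSeries ↥K).leadingCoeff := by
    refine ⟨g, (algebraMap ↥K QBar).injective ?_⟩
    rw [map_mul, map_pow, map_pow, map_mul, hσ₁, hσ₁, hσ₁, hlc, hg]
    exact hγ₀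
  obtain ⟨w₀, hw₀⟩ := ssAsm_stepB_prop M q hq Φ h ↥K (hΦ K hTK) (algebraMap ↥K QBar) A hA σ hσ
    σ₁ hσ₁ m hm hqm ⟨zm, hzm'⟩ f₁ hf₁0 hord₁' hrat hγ
  refine ⟨klBc (algebraMap ↥K QBar) (modularFunctionFieldFull (M * q)) w₀, ?_⟩
  have h := congrArg (klBc (algebraMap ↥K QBar) (modularFunctionFieldFull (M * q))) hw₀
  rw [map_pow, klBc_modelSecondDiff (M * q) _ σ σ₁ hσ₁, hf₁f] at h
  rw [h]
  have hgf0 : arithmeticGalois (modularFunctionFieldFull (M * q)) σ • f ≠ 0 := by simpa using hf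
  exact div_mul_cancel₀ _ (pow_ne_zero 2 hgf0)

section Roots

/-- The property "`K₁` contains primitive roots of unity of orders `R₁`, `R₂`, `R₃`". -/
def rootsProp (R₁ R₂ R₃ : ℕ) : ∀ (K₁ : Type) [Field K₁], Prop := fun K₁ _ =>
  (∃ ζ : K₁, IsPrimitiveRoot ζ R₁) ∧ (∃ ζ : K₁, IsPrimitiveRoot ζ R₂) ∧
    (∃ ζ : K₁, IsPrimitiveRoot ζ R₃)

/-- `ℚ̄` contains primitive roots of unity of every positive order. -/
theorem exists_primitiveRoot_qbar (R : ℕ) (hR : 0 < R) : ∃ ζ : QBar, IsPrimitiveRoot ζ R := by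
  haveI : NeZero ((R : ℕ) : ℚ) := ⟨Nat.cast_ne_zero.mpr hR.ne'⟩
  exact HasEnoughRootsOfUnity.exists_primitiveRoot QBar R

/-- helper45's statement is the local principalisation relative to `rootsProp`. -/
theorem modelLocalPrincProp_of_ss (M q : ℕ) [NeZero M] [NeZero q] (x₀ : LaurentSeries ℚ)
    (R₁ R₂ R₃ : ℕ) (hLP : SSModelLocalPrincStatement M q x₀ R₁ R₂ R₃) :
    ModelLocalPrincPropStatement M q x₀ (rootsProp R₁ R₂ R₃) := by
  intro K₁ _ _ _ A₀ _ _ _ _ _ _ _ hq hΦ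
  exact hLP K₁ A₀ hq hΦ.1 hΦ.2.1 hΦ.2.2

/-- **The second difference statement at level `M q` from the local principalisation over
number fields containing the roots of unity of orders `R₁`, `R₂`, `R₃`.** -/
theorem secondDifference_of_ssLocalPrinc_mul (M q : ℕ) [NeZero M] [NeZero q] (hq : q.Prime)
    (hqM : ¬ q ∣ M) (R₁ R₂ R₃ : ℕ) (h1 : 0 < R₁) (h2 : 0 < R₂) (h3 : 0 < R₃)
    (hLP : SSModelLocalPrincStatement M q jq R₁ R₂ R₃) :
    SecondDifferenceStatement (M * q) q := by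
  obtain ⟨ζ₁, hζ₁⟩ := exists_primitiveRoot_qbar R₁ h1
  obtain ⟨ζ₂, hζ₂⟩ := exists_primitiveRoot_qbar R₂ h2
  obtain ⟨ζ₃, hζ₃⟩ := exists_primitiveRoot_qbar R₃ h3
  refine secondDifference_of_modelGenProp M q hq (rootsProp R₁ R₂ R₃) {ζ₁, ζ₂, ζ₃}
    (((Set.finite_singleton ζ₃).insert ζ₂).insert ζ₁) ?_ ?_
  · intro K hK
    have key : ∀ (R : ℕ) (ζ : QBar), IsPrimitiveRoot ζ R → ζ ∈ K →
        ∃ z : ↥K, IsPrimitiveRoot z R := fun R ζ hζ hmem =>
      ⟨⟨ζ, hmem⟩, IsPrimitiveRoot.of_map_of_injective (f := algebraMap ↥K QBar) hζ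
        (algebraMap ↥K QBar).injective⟩
    exact ⟨key R₁ ζ₁ hζ₁ (hK (by simp)), key R₂ ζ₂ hζ₂ (hK (by simp)),
      key R₃ ζ₃ hζ₃ (hK (by simp))⟩
  · exact modelSecondDiffGenProp_of M q jq (jq_mem_full_ss (M * q))
      (Fermat.Agent.H58.modelTranscendental_jq (M * q))
      (Fermat.Agent.H57.SS.modelFinite (M * q))
      (Fermat.Agent.H7.SS.modelGaussSD_prime M q hq hqM) (rootsProp R₁ R₂ R₃)
      (modelLocalPrincProp_of_ss M q jq R₁ R₂ R₃ hLP)
      Fermat.Agent.H33.KLM.modelRoot Fermat.Agent.H93.KL.modelConst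

/-- **The same at a level `N` with `q ∥ N`.** -/
theorem secondDifference_of_ssLocalPrinc (N q : ℕ) [NeZero N] (hq : q.Prime) (hqN : q ∣ N)
    (hq2 : ¬ q ^ 2 ∣ N) (R₁ R₂ R₃ : ℕ) (h1 : 0 < R₁) (h2 : 0 < R₂) (h3 : 0 < R₃)
    (hLP : ∀ (M : ℕ) [NeZero M] [NeZero q], ¬ q ∣ M → N = M * q →
      SSModelLocalPrincStatement M q jq R₁ R₂ R₃) :
    SecondDifferenceStatement N q := by
  obtain ⟨M, hM, hqM, hN⟩ := exists_level_factor (NeZero.ne N) hqN hq2
  haveI : NeZero M := ⟨hM⟩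
  haveI : NeZero q := ⟨hq.ne_zero⟩
  have h := secondDifference_of_ssLocalPrinc_mul M q hq hqM R₁ R₂ R₃ h1 h2 h3 (hLP M hqM hN)
  rw [hN]
  exact h

end Roots

end Fermat.Agent.H70.SS
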