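import Fermat.Agent.H70.SS.AsmCore
import Fermat.Agent.H93.KL.AsmStepB
import Fermat.Agent.H93.KL.DescFinal
import Fermat.Agent.H34.KLM.DVR

/-!
# P-SS / SSH-12 (row 653) : descent + root + assembly (helper70)

`secondDifference_of_model` : the second difference statement `H45.SecondDifferenceStatement N q`
from the abstract key lemma KL-SS (`KlssAbsStatement`, row SSH-2) and the model inputs
(`ModelSecondDiffStatement N q x₀`, rows SSH-1, SSH-5 .. SSH-11), with the unconditional inputs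
(number-field descent of functions and places, `A ∩ K₁` is a DVR, roots of Laurent series,
constants of `K₁((q))`) plugged in.  Twin of `H93.KL.keyLemmaPrime_of_model`.
-/

set_option autoImplicit false
set_option linter.style.haveILetI false

noncomputable section

namespace Fermat.Agent.H70.SS

open ModularCurve AlgebraicCurve Fermat.Agent.H22.KL Fermat.Agent.H45 Fermat.Agent.H93.KL

section Compat

variable {K₁ : Type} [Field K₁] [Algebra ℚ K₁]

/-- Coefficientwise base change commutes with the arithmetic Galois actions. -/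
theorem klBc_arithmeticGalois (F₀ : IntermediateField ℚ (LaurentSeries ℚ)) (ι : K₁ →+* QBar)
    (σ : QBar ≃ₐ[ℚ] QBar) (σ₁ : K₁ ≃ₐ[ℚ] K₁) (h : ∀ c : K₁, ι (σ₁ c) = σ (ι c))
    (f₁ : ↥(laurentBaseChange K₁ F₀)) :
    klBc ι F₀ (arithmeticGalois F₀ σ₁ • f₁) = arithmeticGalois F₀ σ • klBc ι F₀ f₁ := by
  apply Subtype.ext
  rw [klBc_coe, coe_arithmeticGalois_smul, coe_arithmeticGalois_smul, klBc_coe,
    coeffMap_coeffMap, coeffMap_coeffMap]
  exact coeffMap_congr (RingHom.ext fun c => h c) _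

theorem klBc_modelSecondDiff (N : ℕ) (ι : K₁ →+* QBar)
    (σ : QBar ≃ₐ[ℚ] QBar) (σ₁ : K₁ ≃ₐ[ℚ] K₁) (h : ∀ c : K₁, ι (σ₁ c) = σ (ι c))
    (f₁ : ModelField K₁ N) :
    klBc ι (modularFunctionFieldFull N) (modelSecondDiff N σ₁ f₁) =
      (arithmeticGalois (modularFunctionFieldFull N) σ •
        arithmeticGalois (modularFunctionFieldFull N) σ •
          klBc ι (modularFunctionFieldFull N) f₁) * klBc ι (modularFunctionFieldFull N) f₁ /
        (arithmeticGalois (modularFunctionFieldFull N) σ •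
          klBc ι (modularFunctionFieldFull N) f₁) ^ 2 := by
  unfold modelSecondDiff
  simp only [map_div₀, map_mul, map_pow, klBc_arithmeticGalois _ ι σ σ₁ h]

theorem coe_modelSecondDiff (N : ℕ) (σ₁ : K₁ ≃ₐ[ℚ] K₁) (f : ModelField K₁ N) :
    ((modelSecondDiff N σ₁ f : ModelField K₁ N) : LaurentSeries K₁) =
      coeffMap (σ₁ : K₁ →+* K₁) (coeffMap (σ₁ : K₁ →+* K₁) (f : LaurentSeries K₁)) *
        (f : LaurentSeries K₁) / (coeffMap (σ₁ : K₁ →+* K₁) (f : LaurentSeries K₁)) ^ 2 :=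
  rfl

theorem coeffMap_algEquiv_ne_zero (σ₁ : K₁ ≃ₐ[ℚ] K₁) {g : LaurentSeries K₁} (hg : g ≠ 0) :
    coeffMap (σ₁ : K₁ →+* K₁) g ≠ 0 := fun h =>
  hg ((coeffMap_eq_zero_iff (σ₁ : K₁ →+* K₁) σ₁.injective g).mp h)

theorem modelSecondDiff_ne_zero (N : ℕ) (σ₁ : K₁ ≃ₐ[ℚ] K₁) {f : ModelField K₁ N}
    (hf : f ≠ 0) : modelSecondDiff N σ₁ f ≠ 0 := by
  have hfL : (f : LaurentSeries K₁) ≠ 0 := fun h => hf (Subtype.ext h)
  intro h0
  have h1 := congrArg (fun z : ModelField K₁ N => (z : LaurentSeries K₁)) h0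
  simp only [coe_modelSecondDiff] at h1
  have hc := coeffMap_algEquiv_ne_zero σ₁ hfL
  have ha := coeffMap_algEquiv_ne_zero σ₁ hc
  exact div_ne_zero (mul_ne_zero ha hfL) (pow_ne_zero 2 hc) h1

/-- The second difference has `q`-order zero. -/
theorem order_modelSecondDiff (N : ℕ) (σ₁ : K₁ ≃ₐ[ℚ] K₁) {f : ModelField K₁ N}
    (hf : f ≠ 0) : ((modelSecondDiff N σ₁ f : ModelField K₁ N) : LaurentSeries K₁).order = 0 := by
  have hfL : (f : LaurentSeries K₁) ≠ 0 := fun h => hf (Subtype.ext h)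
  have hc := coeffMap_algEquiv_ne_zero σ₁ hfL
  have ha := coeffMap_algEquiv_ne_zero σ₁ hc
  have hu : ((modelSecondDiff N σ₁ f : ModelField K₁ N) : LaurentSeries K₁) ≠ 0 := fun h =>
    modelSecondDiff_ne_zero N σ₁ hf (Subtype.ext h)
  have h1 : ((modelSecondDiff N σ₁ f : ModelField K₁ N) : LaurentSeries K₁) *
      (coeffMap (σ₁ : K₁ →+* K₁) (f : LaurentSeries K₁)) ^ 2 =
      coeffMap (σ₁ : K₁ →+* K₁) (coeffMap (σ₁ : K₁ →+* K₁) (f : LaurentSeries K₁)) *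
        (f : LaurentSeries K₁) := by
    rw [coe_modelSecondDiff, div_mul_cancel₀ _ (pow_ne_zero 2 hc)]
  have h2 := congrArg HahnSeries.order h1
  rw [HahnSeries.order_mul hu (pow_ne_zero 2 hc), HahnSeries.order_pow,
    HahnSeries.order_mul ha hfL] at h2
  simp only [order_coeffMap (σ₁ : K₁ →+* K₁) σ₁.injective] at h2
  have h3 : (2 : ℕ) • (f : LaurentSeries K₁).order
      = (f : LaurentSeries K₁).order + (f : LaurentSeries K₁).order := by
    rw [two_nsmul]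
  rw [h3] at h2
  have h4 : ((modelSecondDiff N σ₁ f : ModelField K₁ N) : LaurentSeries K₁).order
      + ((f : LaurentSeries K₁).order + (f : LaurentSeries K₁).order)
      = 0 + ((f : LaurentSeries K₁).order + (f : LaurentSeries K₁).order) := by
    rw [h2, zero_add]
  exact add_right_cancel h4

/-- The leading coefficient of the second difference. -/
theorem leadingCoeff_modelSecondDiff (N : ℕ) (σ₁ : K₁ ≃ₐ[ℚ] K₁) {f : ModelField K₁ N}
    (hf : f ≠ 0) :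
    ((modelSecondDiff N σ₁ f : ModelField K₁ N) : LaurentSeries K₁).leadingCoeff *
      (σ₁ (f : LaurentSeries K₁).leadingCoeff) ^ 2 =
      σ₁ (σ₁ (f : LaurentSeries K₁).leadingCoeff) * (f : LaurentSeries K₁).leadingCoeff := by
  have hfL : (f : LaurentSeries K₁) ≠ 0 := fun h => hf (Subtype.ext h)
  have hc := coeffMap_algEquiv_ne_zero σ₁ hfL
  have h1 : ((modelSecondDiff N σ₁ f : ModelField K₁ N) : LaurentSeries K₁) *
      (coeffMap (σ₁ : K₁ →+* K₁) (f : LaurentSeries K₁)) ^ 2 =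
      coeffMap (σ₁ : K₁ →+* K₁) (coeffMap (σ₁ : K₁ →+* K₁) (f : LaurentSeries K₁)) *
        (f : LaurentSeries K₁) := by
    rw [coe_modelSecondDiff, div_mul_cancel₀ _ (pow_ne_zero 2 hc)]
  have h2 := congrArg HahnSeries.leadingCoeff h1
  rw [HahnSeries.leadingCoeff_mul, klAsm_leadingCoeff_pow, HahnSeries.leadingCoeff_mul] at h2
  simp only [leadingCoeff_coeffMap (σ₁ : K₁ →+* K₁) σ₁.injective] at h2
  exact h2

end Compat

section StepB

variable (N q : ℕ) (x₀ : LaurentSeries ℚ)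

/-- **SSH-12, step B**: the second difference of `f₁` is an `m`-th power in the model field over
a number field `ι : K₁ → ℚ̄` containing `μ_m` and an `m`-th root of the leading coefficient. -/
theorem ssAsm_stepB (hq : q.Prime) (hx₀ : x₀ ∈ modularFunctionFieldFull N)
    (hAbs : KlssAbsStatement) (hTr : ModelTranscendentalStatement N x₀)
    (hFin : ModelFiniteStatement N x₀)
    (K₁ : Type) [Field K₁] [Algebra ℚ K₁] [FiniteDimensional ℚ K₁] (ι : K₁ →+* QBar)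
    (A : ValuationSubring QBar) (hA : A.LiesOverPrime q)
    (σ₁ : K₁ ≃ₐ[ℚ] K₁)
    (m : ℕ) (hm : 0 < m) (hqm : ¬ q ∣ m) (hζ : ∃ ζ : K₁, IsPrimitiveRoot ζ m)
    (f₁ : ModelField K₁ N) (hf₁ : f₁ ≠ 0)
    (hγ : ∃ γ : K₁, γ ^ m * (σ₁ (f₁ : LaurentSeries K₁).leadingCoeff) ^ 2 =
      σ₁ (σ₁ (f₁ : LaurentSeries K₁).leadingCoeff) * (f₁ : LaurentSeries K₁).leadingCoeff)
    (hIn : ∀ (A₀ : Type) [CommRing A₀] [IsDomain A₀] [IsDiscreteValuationRing A₀]
      [Algebra A₀ K₁] [IsFractionRing A₀ K₁]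
      [Algebra A₀ (ModelField K₁ N)] [IsScalarTower A₀ K₁ (ModelField K₁ N)],
      (∀ c : K₁, c ∈ (algebraMap A₀ K₁).range ↔ ι c ∈ A) →
      ∀ (ϖ : A₀), Irreducible ϖ →
      ∀ (x : ModelField K₁ N), (x : LaurentSeries K₁) = coeffEmb K₁ x₀ →
        modelSecondDiff N σ₁ f₁ ∈ gaussClosure A₀ (ModelField K₁ N) ϖ x ∧
        PiDvdSet A₀ (ModelField K₁ N) ϖ (gaussClosure A₀ (ModelField K₁ N) ϖ x)
          (modelSecondDiff N σ₁ f₁ - 1) ∧
        LocalPrinc A₀ (ModelField K₁ N) ϖ x m (modelSecondDiff N σ₁ f₁) ∧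
        LocalPrinc A₀ (ModelField K₁ N) ϖ x⁻¹ m (modelSecondDiff N σ₁ f₁)) :
    ∃ w : ModelField K₁ N, w ^ m = modelSecondDiff N σ₁ f₁ := by
  classical
  haveI hdvr : IsDiscreteValuationRing ↥(A.comap ι) :=
    Fermat.Agent.H34.modelDVR K₁ ι A q hq hA
  letI algE : Algebra ↥(A.comap ι) (ModelField K₁ N) :=
    ((algebraMap K₁ (ModelField K₁ N)).comp (algebraMap ↥(A.comap ι) K₁)).toAlgebra
  haveI : IsScalarTower ↥(A.comap ι) K₁ (ModelField K₁ N) :=
    IsScalarTower.of_algebraMap_eq (fun _ => rfl)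
  -- `q` is not a unit
  have hq' : ¬ IsUnit ((q : ℕ) : ↥(A.comap ι)) := by
    have h1 : ((q : ℕ) : ↥(A.comap ι)) = ⟨(q : K₁), by
        rw [ValuationSubring.mem_comap, map_natCast]; exact natCast_mem A q⟩ :=
      Subtype.ext (by simp)
    rw [h1, isUnit_comap_iff, valuationSubring_isUnit_iff]
    rintro ⟨h0, hinv⟩
    have h2 : ((q : ℕ) : QBar) ∈ A.nonunits := hA
    rw [ValuationSubring.mem_nonunits_iff_exists_mem_maximalIdeal] at h2
    obtain ⟨hmem, hmax⟩ := h2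
    rw [IsLocalRing.mem_maximalIdeal, mem_nonunits_iff] at hmax
    apply hmax
    rw [valuationSubring_isUnit_iff]
    refine ⟨?_, ?_⟩
    · simpa using h0
    · simpa using hinv
  -- `m` is a unit
  have hmA : IsUnit ((m : ℕ) : ↥(A.comap ι)) := by
    by_contra hmu
    have hcop : Nat.Coprime q m := (Nat.Prime.coprime_iff_not_dvd hq).mpr hqm
    have hcopZ : IsCoprime (q : ℤ) (m : ℤ) := Nat.isCoprime_iff_coprime.mpr hcop
    obtain ⟨u, v, huv⟩ := hcopZ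
    have h1 : ((q : ℕ) : ↥(A.comap ι)) ∈ IsLocalRing.maximalIdeal ↥(A.comap ι) := by
      rw [IsLocalRing.mem_maximalIdeal, mem_nonunits_iff]; exact hq'
    have h2 : ((m : ℕ) : ↥(A.comap ι)) ∈ IsLocalRing.maximalIdeal ↥(A.comap ι) := by
      rw [IsLocalRing.mem_maximalIdeal, mem_nonunits_iff]; exact hmu
    have h3 : (1 : ↥(A.comap ι)) ∈ IsLocalRing.maximalIdeal ↥(A.comap ι) := by
      have h4 : ((u : ↥(A.comap ι)) * ((q : ℕ) : ↥(A.comap ι))
          + (v : ↥(A.comap ι)) * ((m : ℕ) : ↥(A.comap ι))) = 1 := by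
        have := congrArg (fun z : ℤ => (z : ↥(A.comap ι))) huv
        simpa using this
      rw [← h4]
      exact Ideal.add_mem _ (Ideal.mul_mem_left _ _ h1) (Ideal.mul_mem_left _ _ h2)
    exact (Ideal.ne_top_iff_one _).mp (IsLocalRing.maximalIdeal.isMaximal _).ne_top h3
  obtain ⟨ϖ, hϖ⟩ := IsDiscreteValuationRing.exists_irreducible ↥(A.comap ι)
  let x : ModelField K₁ N := ⟨coeffEmb K₁ x₀, coeffEmb_mem_laurentBaseChange K₁ hx₀⟩
  have hA₀ : ∀ c : K₁, c ∈ (algebraMap ↥(A.comap ι) K₁).range ↔ ι c ∈ A := by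
    intro c
    constructor
    · rintro ⟨d, rfl⟩
      exact d.2
    · intro h
      exact ⟨⟨c, h⟩, rfl⟩
  obtain ⟨huC, hu1, hLf, hLi⟩ := hIn ↥(A.comap ι) hA₀ ϖ hϖ x rfl
  have hu0 := modelSecondDiff_ne_zero N σ₁ hf₁
  have hfL : (f₁ : LaurentSeries K₁) ≠ 0 := fun h => hf₁ (Subtype.ext h)
  have hl0 : (f₁ : LaurentSeries K₁).leadingCoeff ≠ 0 := HahnSeries.leadingCoeff_ne_zero.mpr hfL
  have hσl0 : σ₁ (f₁ : LaurentSeries K₁).leadingCoeff ≠ 0 := by
    rwa [Ne, EmbeddingLike.map_eq_zero_iff]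
  have hγ' : ∃ γ : K₁, γ ^ m =
      ((modelSecondDiff N σ₁ f₁ : ModelField K₁ N) : LaurentSeries K₁).leadingCoeff := by
    obtain ⟨γ, hγ⟩ := hγ
    refine ⟨γ, ?_⟩
    have h1 := leadingCoeff_modelSecondDiff N σ₁ hf₁
    rw [← hγ] at h1
    exact (mul_right_cancel₀ (pow_ne_zero 2 hσl0) h1).symm
  exact ssAsm_core N x₀ hAbs hTr hFin K₁ ↥(A.comap ι) m hm hmA hζ ϖ hϖ x rfl _ hu0 huC hu1
    hLf hLi (by rw [order_modelSecondDiff N σ₁ hf₁]; exact dvd_zero _) hγ'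

end StepB

/-- **SSH-12**: the second difference statement from the abstract key lemma KL-SS and the model
inputs. -/
theorem secondDifference_of_model (N q : ℕ) (hq : q.Prime) (x₀ : LaurentSeries ℚ)
    (hx₀ : x₀ ∈ modularFunctionFieldFull N)
    (hAbs : KlssAbsStatement) (hTr : ModelTranscendentalStatement N x₀)
    (hFin : ModelFiniteStatement N x₀) (hIn : ModelSecondDiffStatement N q x₀) :
    SecondDifferenceStatement N q := by
  classical
  intro A hA σ hσ m hm hqm f hf hord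
  -- number-field descent of `f`
  have h1mem : (1 : LaurentSeries QBar) ∈ modularFunctionFieldBar N := one_mem _
  obtain ⟨K₀, hK₀fin, hD⟩ := klDescent N (f : LaurentSeries QBar) 1 f.2 h1mem m (by
    intro P
    have e1 : (⟨(1 : LaurentSeries QBar), h1mem⟩ : ↥(modularFunctionFieldBar N)) = 1 := rfl
    rw [e1, Place.ord_one, sub_zero]
    exact hord P)
  obtain ⟨K₀', hK₀'fin, hI⟩ := hIn A hA σ hσ m hm hqm f hf hord
  haveI : NeZero ((m : ℕ) : ℚ) := ⟨Nat.cast_ne_zero.mpr hm.ne'⟩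
  obtain ⟨ζm, hζm⟩ := HasEnoughRootsOfUnity.exists_primitiveRoot QBar m
  have hfL : (f : LaurentSeries QBar) ≠ 0 := fun h => hf (Subtype.ext h)
  set l₀ : QBar := (f : LaurentSeries QBar).leadingCoeff with hl₀
  have hl0 : l₀ ≠ 0 := HahnSeries.leadingCoeff_ne_zero.mpr hfL
  have hσl0 : σ l₀ ≠ 0 := by rwa [Ne, EmbeddingLike.map_eq_zero_iff]
  obtain ⟨γ₀, hγ₀⟩ : ∃ γ₀ : QBar, γ₀ ^ m * (σ l₀) ^ 2 = σ (σ l₀) * l₀ := by
    obtain ⟨z, hz⟩ := IsAlgClosed.exists_pow_nat_eq (σ (σ l₀) * l₀ / (σ l₀) ^ 2) hm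
    exact ⟨z, by rw [hz, div_mul_cancel₀ _ (pow_ne_zero 2 hσl0)]⟩
  let K' : IntermediateField ℚ QBar :=
    K₀ ⊔ K₀' ⊔ IntermediateField.adjoin ℚ ({ζm, γ₀} : Set QBar)
  haveI : FiniteDimensional ℚ ↥K₀ := hK₀fin
  haveI : FiniteDimensional ℚ ↥K₀' := hK₀'fin
  have halg : Algebra.IsAlgebraic ℚ QBar := AlgebraicClosure.isAlgebraic ℚ
  haveI : FiniteDimensional ℚ ↥(IntermediateField.adjoin ℚ ({ζm, γ₀} : Set QBar)) :=
    IntermediateField.finiteDimensional_adjoin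
      (fun x _ => (Algebra.IsAlgebraic.isAlgebraic (R := ℚ) x).isIntegral)
  haveI : FiniteDimensional ℚ ↥(K₀ ⊔ K₀') := IntermediateField.finiteDimensional_sup _ _
  haveI : FiniteDimensional ℚ ↥K' := IntermediateField.finiteDimensional_sup _ _
  let K : IntermediateField ℚ QBar := IntermediateField.normalClosure ℚ ↥K' QBar
  haveI hcl : IsAlgClosure ℚ (AlgebraicClosure ℚ) := ⟨inferInstance, inferInstance⟩
  haveI hnorm : Normal ℚ (AlgebraicClosure ℚ) := IsAlgClosure.normal ℚ (AlgebraicClosure ℚ)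
  haveI : Normal ℚ ↥K := normalClosure.normal ℚ ↥K' QBar
  haveI : FiniteDimensional ℚ ↥K := normalClosure.is_finiteDimensional ℚ ↥K' QBar
  have hK'K : K' ≤ K := IntermediateField.le_normalClosure K'
  have hrange : ∀ c ∈ K, c ∈ (algebraMap ↥K QBar).range := fun c hc => ⟨⟨c, hc⟩, rfl⟩
  have hadj : ∀ c ∈ ({ζm, γ₀} : Set QBar), c ∈ K := fun c hc =>
    hK'K ((le_sup_right : IntermediateField.adjoin ℚ ({ζm, γ₀} : Set QBar) ≤ K')
      (IntermediateField.subset_adjoin ℚ _ hc))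
  have hK₀ : ∀ c ∈ K₀, c ∈ (algebraMap ↥K QBar).range := fun c hc =>
    hrange c (hK'K ((le_sup_left : K₀ ⊔ K₀' ≤ K') ((le_sup_left : K₀ ≤ K₀ ⊔ K₀') hc)))
  have hK₀' : ∀ c ∈ K₀', c ∈ (algebraMap ↥K QBar).range := fun c hc =>
    hrange c (hK'K ((le_sup_left : K₀ ⊔ K₀' ≤ K') ((le_sup_right : K₀' ≤ K₀ ⊔ K₀') hc)))
  -- the restriction of `σ`
  let σ₁ : ↥K ≃ₐ[ℚ] ↥K := σ.restrictNormal ↥K
  have hσ₁ : ∀ c : ↥K, algebraMap ↥K QBar (σ₁ c) = σ (algebraMap ↥K QBar c) := fun c =>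
    AlgEquiv.restrictNormal_commutes σ ↥K c
  -- the descended function
  obtain ⟨a₁, b₁, ha₁, hb₁, haa, hbb, hord₁⟩ := hD ↥K (algebraMap ↥K QBar) hK₀
  have hb1 : b₁ = 1 := by
    have h2 : coeffMap (algebraMap ↥K QBar) (b₁ - 1) = 0 := by
      rw [map_sub, hbb, map_one, sub_self]
    have h3 := (coeffMap_eq_zero_iff (algebraMap ↥K QBar) (algebraMap ↥K QBar).injective _).mp h2
    exact sub_eq_zero.mp h3
  subst hb1
  let f₁ : ModelField ↥K N := ⟨a₁, ha₁⟩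
  have hf₁f : klBc (algebraMap ↥K QBar) (modularFunctionFieldFull N) f₁ = f := Subtype.ext haa
  have hf₁0 : f₁ ≠ 0 := by
    intro h0
    apply hf
    rw [← hf₁f, h0, map_zero]
  have hord₁' : ∀ P₁ : Place ↥K (ModelField ↥K N), (m : ℤ) ∣ P₁.ord f₁ := by
    intro P₁
    have := hord₁ P₁
    have e1 : (⟨(1 : LaurentSeries ↥K), hb₁⟩ : ↥(laurentBaseChange ↥K (modularFunctionFieldFull N)))
        = 1 := rfl
    rw [e1, Place.ord_one, sub_zero] at this
    exact this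
  -- roots of unity and the root of the leading coefficient
  obtain ⟨zm, hzm⟩ := hrange ζm (hadj ζm (by simp))
  obtain ⟨g, hg⟩ := hrange γ₀ (hadj γ₀ (by simp))
  have hzm' : IsPrimitiveRoot zm m :=
    IsPrimitiveRoot.of_map_of_injective (hzm ▸ hζm) (algebraMap ↥K QBar).injective
  have hlc : algebraMap ↥K QBar (f₁ : LaurentSeries ↥K).leadingCoeff = l₀ := by
    rw [hl₀, ← haa, leadingCoeff_coeffMap _ (algebraMap ↥K QBar).injective]
  have hγ : ∃ γ : ↥K, γ ^ m * (σ₁ (f₁ : LaurentSeries ↥K).leadingCoeff) ^ 2 =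
      σ₁ (σ₁ (f₁ : LaurentSeries ↥K).leadingCoeff) * (f₁ : LaurentSeries ↥K).leadingCoeff := by
    refine ⟨g, (algebraMap ↥K QBar).injective ?_⟩
    rw [map_mul, map_pow, map_pow, map_mul, hσ₁, hσ₁, hσ₁, hlc, hg]
    exact hγ₀
  obtain ⟨w₀, hw₀⟩ := ssAsm_stepB N q x₀ hq hx₀ hAbs hTr hFin ↥K (algebraMap ↥K QBar) A hA σ₁
    m hm hqm ⟨zm, hzm'⟩ f₁ hf₁0 hγ (fun A₀ _ _ _ _ _ _ _ hA₀ ϖ hϖ x hx =>
      hI ↥K (algebraMap ↥K QBar) hK₀' σ₁ hσ₁ A₀ hA₀ ϖ hϖ x hx f₁ hf₁f hord₁')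
  refine ⟨klBc (algebraMap ↥K QBar) (modularFunctionFieldFull N) w₀, ?_⟩
  have h := congrArg (klBc (algebraMap ↥K QBar) (modularFunctionFieldFull N)) hw₀
  rw [map_pow, klBc_modelSecondDiff N _ σ σ₁ hσ₁, hf₁f] at h
  rw [h]
  have hgf0 : arithmeticGalois (modularFunctionFieldFull N) σ • f ≠ 0 := by simpa using hf
  exact div_mul_cancel₀ _ (pow_ne_zero 2 hgf0)

end Fermat.Agent.H70.SS
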