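import Fermat.Agent.H70.SS.AsmInterfaces
import Fermat.Agent.H33.KLM.ModelRoot
import Fermat.Agent.H98.KL.LaurentConst

/-!
# P-SS / SSH-12 (row 653) : assembly, core (helper70)

The abstract key lemma KL-SS applied to the model field over a number field `K₁` with an abstract
discrete valuation ring `A₀` (twin of `H22.KL.klAsm_core`).
-/

set_option autoImplicit false
set_option linter.style.haveILetI false

noncomputable section

namespace Fermat.Agent.H70.SS

open Polynomial ModularCurve AlgebraicCurve Fermat.Agent.H22.KL Fermat.Agent.H45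

/-- **SSH-12, core**: an element `u` of the model field with `u ≡ 1` modulo `ϖ C(x)`, locally
principalisable in both charts, of `q`-order divisible by `m` and with leading coefficient an
`m`-th power, is an `m`-th power. -/
theorem ssAsm_core (N : ℕ) (x₀ : LaurentSeries ℚ)
    (hAbs : KlssAbsStatement) (hTr : ModelTranscendentalStatement N x₀)
    (hFin : ModelFiniteStatement N x₀)
    (K₁ : Type) [Field K₁] [Algebra ℚ K₁]
    (A₀ : Type) [CommRing A₀] [IsDomain A₀] [IsDiscreteValuationRing A₀]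
    [Algebra A₀ K₁] [IsFractionRing A₀ K₁]
    [Algebra A₀ (ModelField K₁ N)] [IsScalarTower A₀ K₁ (ModelField K₁ N)]
    (m : ℕ) (hm : 0 < m) (hmA : IsUnit ((m : ℕ) : A₀)) (hζ : ∃ ζ : K₁, IsPrimitiveRoot ζ m)
    (ϖ : A₀) (hϖ : Irreducible ϖ)
    (x : ModelField K₁ N) (hx : (x : LaurentSeries K₁) = coeffEmb K₁ x₀)
    (u : ModelField K₁ N) (hu0 : u ≠ 0)
    (huC : u ∈ gaussClosure A₀ (ModelField K₁ N) ϖ x)
    (hu1 : PiDvdSet A₀ (ModelField K₁ N) ϖ (gaussClosure A₀ (ModelField K₁ N) ϖ x) (u - 1))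
    (hLf : LocalPrinc A₀ (ModelField K₁ N) ϖ x m u)
    (hLi : LocalPrinc A₀ (ModelField K₁ N) ϖ x⁻¹ m u)
    (hord : (m : ℤ) ∣ (u : LaurentSeries K₁).order)
    (hγ : ∃ γ : K₁, γ ^ m = (u : LaurentSeries K₁).leadingCoeff) :
    ∃ w : ModelField K₁ N, w ^ m = u := by
  classical
  have hinjK : Function.Injective (algebraMap A₀ K₁) := IsFractionRing.injective A₀ K₁
  have huL : (u : LaurentSeries K₁) ≠ 0 := fun h => hu0 (Subtype.ext h)
  -- the instances on `Ω = K₁((q))` (canonical algebra structure over `A₀`)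
  have hmapΩ : ∀ c : A₀, algebraMap A₀ (LaurentSeries K₁) c
      = algebraMap K₁ (LaurentSeries K₁) (algebraMap A₀ K₁ c) := by
    intro c
    simp [HahnSeries.algebraMap_apply', PowerSeries.algebraMap_apply]
  haveI towK := IsScalarTower.of_algebraMap_eq (R := A₀) (S := K₁) (A := LaurentSeries K₁) hmapΩ
  haveI towE := IsScalarTower.of_algebraMap_eq (R := A₀) (S := ModelField K₁ N)
    (A := LaurentSeries K₁) (fun c => by
      rw [hmapΩ, IsScalarTower.algebraMap_apply A₀ K₁ (ModelField K₁ N)]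
      rfl)
  haveI : CharZero K₁ := charZero_of_injective_algebraMap (algebraMap ℚ K₁).injective
  haveI : CharZero (ModelField K₁ N) :=
    charZero_of_injective_algebraMap (algebraMap K₁ (ModelField K₁ N)).injective
  have hinjE : Function.Injective (algebraMap A₀ (ModelField K₁ N)) := by
    rw [IsScalarTower.algebraMap_eq A₀ K₁ (ModelField K₁ N)]
    exact (algebraMap K₁ (ModelField K₁ N)).injective.comp hinjK
  have htr : Transcendental A₀ x := hTr K₁ A₀ x hx
  have hfd := hFin K₁ A₀ x hx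
  have hconst : ∀ z : LaurentSeries K₁, IsIntegral A₀ z →
      z ∈ (algebraMap A₀ (LaurentSeries K₁)).range := by
    intro z hz
    have hz1 : IsAlgebraic K₁ z := (hz.tower_top (A := K₁)).isAlgebraic
    obtain ⟨c, rfl⟩ := Fermat.Agent.H98.KL.exists_const_of_isAlgebraic z hz1
    have hc : IsIntegral A₀ c :=
      (isIntegral_algebraMap_iff (algebraMap K₁ (LaurentSeries K₁)).injective).mp hz
    obtain ⟨d, rfl⟩ := IsIntegrallyClosed.isIntegral_iff.mp hc
    exact ⟨d, hmapΩ d⟩
  -- the primitive root of unity in `A₀`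
  have hζA : ∃ ζ : A₀, IsPrimitiveRoot ζ m := by
    obtain ⟨ζ, hζ⟩ := hζ
    have hint : IsIntegral A₀ ζ :=
      ⟨X ^ m - 1, monic_X_pow_sub_C 1 hm.ne', by simp [hζ.pow_eq_one]⟩
    obtain ⟨z, hz⟩ := IsIntegrallyClosed.isIntegral_iff.mp hint
    exact ⟨z, IsPrimitiveRoot.of_map_of_injective (f := algebraMap A₀ K₁) (hz ▸ hζ) hinjK⟩
  -- the `m`-th root in `Ω`
  have hroot : ∃ w : LaurentSeries K₁, w ^ m = algebraMap (ModelField K₁ N) (LaurentSeries K₁)
      u := Fermat.Agent.H33.KLM.modelRoot K₁ m hm (u : LaurentSeries K₁) huL hord hγ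
  exact hAbs A₀ (ModelField K₁ N) (LaurentSeries K₁) hinjE ϖ hϖ x htr hfd hconst m hm hmA hζA
    u huC hu1 hLf hLi hroot

end Fermat.Agent.H70.SS
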