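import Fermat.Agent.H22.ES.KLModel
import Fermat.Agent.H45.SS.KLSSAbs
import Fermat.Agent.H45.SS.SecondDiff
import Fermat.Agent.H93.KL.DescInterfaces

/-!
# P-SS / SSH-12 (row 653) : interfaces of the assembly (helper70)

Twin of `H22.KL.KLModel` / `H93.KL.keyLemmaPrime_of_model` for the second difference statement
`H45.SecondDifferenceStatement N q`.

* `modelSecondDiff N σ₁ f = σ₁²(f) f / σ₁(f)²` in the model field `ModelField K₁ N`.
* `KlssAbsStatement` (row SSH-2): the abstract key lemma KL-SS for an arbitrary exponent `m`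
  (same binders as `H45.klssAbs_prime`).
* `ModelSDContext`-style statements: the model inputs, for EVERY number field `ι : K₁ → ℚ̄`
  containing a number field `K₀` chosen by the provider (depending on `f`, `m`), every
  automorphism `σ₁` of `K₁` induced by `σ`, and every abstract discrete valuation ring `A₀` with
  fraction field `K₁` presenting `A ∩ K₁`:
  - `ModelGaussSDStatement N q x₀` (row SSH-5): `u ∈ C(x)`, `u - 1 ∈ ϖ C(x)`;
  - `ModelLocalPrincStatement N q x₀` (rows SSH-1, SSH-6 .. SSH-11): local principalisation of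
    `u` in both charts;
  - `ModelSecondDiffStatement N q x₀` : both together (what the assembly consumes).
-/

set_option autoImplicit false

noncomputable section

namespace Fermat.Agent.H70.SS

open ModularCurve AlgebraicCurve Fermat.Agent.H22.KL Fermat.Agent.H45 Fermat.Agent.H93.KL

/-- The second difference `σ₁²(f) f / σ₁(f)²` in the model field. -/
def modelSecondDiff {K₁ : Type} [Field K₁] [Algebra ℚ K₁] (N : ℕ) (σ₁ : K₁ ≃ₐ[ℚ] K₁)
    (f : ModelField K₁ N) : ModelField K₁ N :=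
  (arithmeticGalois (modularFunctionFieldFull N) σ₁ •
      arithmeticGalois (modularFunctionFieldFull N) σ₁ • f) * f /
    (arithmeticGalois (modularFunctionFieldFull N) σ₁ • f) ^ 2

/-- **SSH-2**: the abstract key lemma KL-SS for an arbitrary exponent `m > 0` (unit in `A`,
`μ_m ⊆ A`).  Same binders as `Fermat.Agent.H45.klssAbs_prime`. -/
def KlssAbsStatement : Prop :=
  ∀ (A : Type) [CommRing A] [IsDomain A] [IsDiscreteValuationRing A]
    (E₀ Ω : Type) [Field E₀] [Field Ω] [Algebra A E₀] [Algebra A Ω] [Algebra E₀ Ω]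
    [IsScalarTower A E₀ Ω] [CharZero E₀],
    Function.Injective (algebraMap A E₀) →
    ∀ (ϖ : A), Irreducible ϖ → ∀ (x : E₀), Transcendental A x →
    (∃ n : ℕ, Nonempty (Module.Basis (Fin n) (chartField A E₀ x) E₀)) →
    (∀ z : Ω, IsIntegral A z → z ∈ (algebraMap A Ω).range) →
    ∀ (m : ℕ), 0 < m → IsUnit ((m : ℕ) : A) → (∃ ζ : A, IsPrimitiveRoot ζ m) →
    ∀ (u : E₀), u ∈ gaussClosure A E₀ ϖ x →
      PiDvdSet A E₀ ϖ (gaussClosure A E₀ ϖ x) (u - 1) →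
      LocalPrinc A E₀ ϖ x m u → LocalPrinc A E₀ ϖ x⁻¹ m u →
      (∃ w : Ω, w ^ m = algebraMap E₀ Ω u) →
      ∃ w₀ : E₀, w₀ ^ m = u

/-- The common shape of the model inputs: a property `Φ` of
`(K₁, A₀, ϖ, x, m, u = modelSecondDiff N σ₁ f₁)` holds for every sufficiently large number field
`ι : K₁ → ℚ̄` (normal over `ℚ`), for every `f ≠ 0` over `ℚ̄` with divisor divisible by `m`,
`q ∤ m`, and every `σ` in the inertia group of `A` over `q`. -/
def ModelSDShape (N q : ℕ) (x₀ : LaurentSeries ℚ)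
    (Φ : ∀ (K₁ : Type) [Field K₁] [Algebra ℚ K₁]
      (A₀ : Type) [CommRing A₀] [Algebra A₀ (ModelField K₁ N)],
      A₀ → ModelField K₁ N → ℕ → ModelField K₁ N → Prop) : Prop :=
  ∀ (A : ValuationSubring QBar), A.LiesOverPrime q → ∀ σ ∈ A.inertiaSubgroupIn ℚ,
  ∀ (m : ℕ), 0 < m → ¬ q ∣ m →
  ∀ f : modularFunctionFieldBar N, f ≠ 0 →
    (∀ P : Place QBar (modularFunctionFieldBar N), (m : ℤ) ∣ P.ord f) →
    ∃ K₀ : IntermediateField ℚ QBar, FiniteDimensional ℚ ↥K₀ ∧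
      ∀ (K₁ : Type) [Field K₁] [Algebra ℚ K₁] [FiniteDimensional ℚ K₁] [Normal ℚ K₁]
        (ι : K₁ →+* QBar), (∀ c ∈ K₀, c ∈ ι.range) →
        ∀ (σ₁ : K₁ ≃ₐ[ℚ] K₁), (∀ c : K₁, ι (σ₁ c) = σ (ι c)) →
        ∀ (A₀ : Type) [CommRing A₀] [IsDomain A₀] [IsDiscreteValuationRing A₀]
          [Algebra A₀ K₁] [IsFractionRing A₀ K₁]
          [Algebra A₀ (ModelField K₁ N)] [IsScalarTower A₀ K₁ (ModelField K₁ N)],
          (∀ c : K₁, c ∈ (algebraMap A₀ K₁).range ↔ ι c ∈ A) →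
          ∀ (ϖ : A₀), Irreducible ϖ →
          ∀ (x : ModelField K₁ N), (x : LaurentSeries K₁) = coeffEmb K₁ x₀ →
          ∀ (f₁ : ModelField K₁ N), klBc ι (modularFunctionFieldFull N) f₁ = f →
            (∀ P₁ : Place K₁ (ModelField K₁ N), (m : ℤ) ∣ P₁.ord f₁) →
            Φ K₁ A₀ ϖ x m (modelSecondDiff N σ₁ f₁)

/-- **SSH-5 (GAUSS-SD)**: the second difference lies in the Gauss closure and is `≡ 1`
modulo `ϖ C(x)`. -/
def ModelGaussSDStatement (N q : ℕ) (x₀ : LaurentSeries ℚ) : Prop :=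
  ModelSDShape N q x₀ (fun K₁ _ _ A₀ _ _ ϖ x _ u =>
    u ∈ gaussClosure A₀ (ModelField K₁ N) ϖ x ∧
    PiDvdSet A₀ (ModelField K₁ N) ϖ (gaussClosure A₀ (ModelField K₁ N) ϖ x) (u - 1))

/-- **SSH-1 + SSH-6 .. SSH-11**: local principalisation of the second difference in both
charts. -/
def ModelLocalPrincStatement (N q : ℕ) (x₀ : LaurentSeries ℚ) : Prop :=
  ModelSDShape N q x₀ (fun K₁ _ _ A₀ _ _ ϖ x m u =>
    LocalPrinc A₀ (ModelField K₁ N) ϖ x m u ∧ LocalPrinc A₀ (ModelField K₁ N) ϖ x⁻¹ m u)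

/-- The input of the assembly: both of the above. -/
def ModelSecondDiffStatement (N q : ℕ) (x₀ : LaurentSeries ℚ) : Prop :=
  ModelSDShape N q x₀ (fun K₁ _ _ A₀ _ _ ϖ x m u =>
    u ∈ gaussClosure A₀ (ModelField K₁ N) ϖ x ∧
    PiDvdSet A₀ (ModelField K₁ N) ϖ (gaussClosure A₀ (ModelField K₁ N) ϖ x) (u - 1) ∧
    LocalPrinc A₀ (ModelField K₁ N) ϖ x m u ∧ LocalPrinc A₀ (ModelField K₁ N) ϖ x⁻¹ m u)

/-- Finiteness of the model field over the chart field (unconditional for `x₀ = jq`). -/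
def ModelFiniteStatement (N : ℕ) (x₀ : LaurentSeries ℚ) : Prop :=
  ∀ (K₁ : Type) [Field K₁] [Algebra ℚ K₁]
    (A₀ : Type) [CommRing A₀] [IsDomain A₀] [Algebra A₀ K₁] [IsFractionRing A₀ K₁]
    [Algebra A₀ (ModelField K₁ N)] [IsScalarTower A₀ K₁ (ModelField K₁ N)]
    (x : ModelField K₁ N), (x : LaurentSeries K₁) = coeffEmb K₁ x₀ →
    ∃ n : ℕ, Nonempty (Module.Basis (Fin n) (chartField A₀ (ModelField K₁ N) x)
      (ModelField K₁ N))

/-- The two split inputs give the merged one. -/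
theorem modelSecondDiff_of_split {N q : ℕ} {x₀ : LaurentSeries ℚ}
    (h₁ : ModelGaussSDStatement N q x₀) (h₂ : ModelLocalPrincStatement N q x₀) :
    ModelSecondDiffStatement N q x₀ := by
  intro A hA σ hσ m hm hqm f hf hord
  obtain ⟨Ka, hKa, hA₁⟩ := h₁ A hA σ hσ m hm hqm f hf hord
  obtain ⟨Kb, hKb, hB₁⟩ := h₂ A hA σ hσ m hm hqm f hf hord
  refine ⟨Ka ⊔ Kb, ?_, ?_⟩
  · haveI := hKa
    haveI := hKb
    exact IntermediateField.finiteDimensional_sup Ka Kb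
  · intro K₁ _ _ _ _ ι hK σ₁ hσ₁ A₀ _ _ _ _ _ _ _ hA₀ ϖ hϖ x hx f₁ hf₁ hord₁
    obtain ⟨h1, h2⟩ := hA₁ K₁ ι (fun c hc => hK c ((le_sup_left : Ka ≤ Ka ⊔ Kb) hc)) σ₁ hσ₁
      A₀ hA₀ ϖ hϖ x hx f₁ hf₁ hord₁
    obtain ⟨h3, h4⟩ := hB₁ K₁ ι (fun c hc => hK c ((le_sup_right : Kb ≤ Ka ⊔ Kb) hc)) σ₁ hσ₁
      A₀ hA₀ ϖ hϖ x hx f₁ hf₁ hord₁
    exact ⟨h1, h2, h3, h4⟩

end Fermat.Agent.H70.SS
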