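import Fermat.Agent.H70.SS.Asm
import Fermat.Agent.H70.SS.RatPlaceModular
import Fermat.Agent.H82.SS.ModelAsm2

/-!
# P-SS / SSH-12 (row 653), part 2 : descent in the official contract (helper70)

`secondDifference_of_modelGen` : the second difference statement
`H45.SecondDifferenceStatement (M * q) q` from helper82's model-level statement
`H82.SS.ModelSecondDiffGenStatement M q` (arbitrary exponent, abstract discrete valuation ring,
`IsModelInertia`, divisor supported on rational places).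

Unconditional inputs plugged in here: number-field descent of functions and places
(`H93.KL.klDescent`), rationality of the support after a finite extension
(`exists_field_rational_support_modular`), `A ∩ K₁` is a discrete valuation ring
(`H34.modelDVR`), restriction of the inertia element to a normal number field.
-/

set_option autoImplicit false
set_option linter.style.haveILetI false

noncomputable section

namespace Fermat.Agent.H70.SS

open ModularCurve AlgebraicCurve Fermat.Agent.H22.KL Fermat.Agent.H45 Fermat.Agent.H93.KL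

section Inertia

variable {K₁ : Type} [Field K₁] [Algebra ℚ K₁]

/-- The restriction of an inertia element of `A` to a number field `ι : K₁ → ℚ̄` is a model
inertia element of `A ∩ K₁`. -/
theorem isModelInertia_comap (ι : K₁ →+* QBar) (A : ValuationSubring QBar)
    (σ : QBar ≃ₐ[ℚ] QBar) (hσ : σ ∈ A.inertiaSubgroupIn ℚ)
    (σ₁ : K₁ ≃ₐ[ℚ] K₁) (hσ₁ : ∀ c : K₁, ι (σ₁ c) = σ (ι c)) :
    Fermat.Agent.H82.SS.IsModelInertia K₁ ↥(A.comap ι) σ₁ := by
  intro a
  have hdec := Fermat.Agent.H8.mem_decomposition_of_mem_inertiaSubgroupIn A hσ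
  have ha : ι (a : K₁) ∈ A := a.2
  have hb : σ₁ (a : K₁) ∈ A.comap ι := by
    rw [ValuationSubring.mem_comap, hσ₁]
    exact Fermat.Agent.H8.apply_mem_of_mem_decomposition A hdec ha
  refine ⟨⟨σ₁ (a : K₁), hb⟩, rfl, ?_⟩
  have hsub : σ₁ (a : K₁) - (a : K₁) ∈ A.comap ι := (A.comap ι).sub_mem hb a.2
  have e : (⟨σ₁ (a : K₁), hb⟩ : ↥(A.comap ι)) - a = ⟨σ₁ (a : K₁) - (a : K₁), hsub⟩ :=
    Subtype.ext rfl
  rw [e, isUnit_comap_iff]
  have hnon := Fermat.Agent.H8.apply_sub_mem_nonunits_of_mem_inertia A hσ ha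
  rw [ValuationSubring.mem_nonunits_iff_exists_mem_maximalIdeal] at hnon
  obtain ⟨hmem, hmax⟩ := hnon
  rw [IsLocalRing.mem_maximalIdeal, mem_nonunits_iff] at hmax
  intro hu
  apply hmax
  have e2 : (⟨σ (ι (a : K₁)) - ι (a : K₁), hmem⟩ : ↥A)
      = ⟨ι (σ₁ (a : K₁) - (a : K₁)), hsub⟩ := by
    apply Subtype.ext
    show σ (ι (a : K₁)) - ι (a : K₁) = ι (σ₁ (a : K₁) - (a : K₁))
    rw [map_sub, hσ₁]
  rw [e2]
  exact hu

/-- helper82's second difference is `modelSecondDiff`. -/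
theorem secondDiff_modelSigma (N : ℕ) (σ₁ : K₁ ≃ₐ[ℚ] K₁) (f : ModelField K₁ N) :
    Fermat.Agent.H82.SS.secondDiff (Fermat.Agent.H82.SS.modelSigma K₁ N σ₁) f
      = modelSecondDiff N σ₁ f := rfl

end Inertia

section StepB

/-- **SSH-12, step B (contract form)**: the second difference of `f₁` is an `m`-th power in the
model field over a number field `ι : K₁ → ℚ̄` containing `μ_m` and an `m`-th root of the leading
coefficient, if the divisor of `f₁` is divisible by `m` and supported on rational places. -/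
theorem ssAsm_stepB_gen (M q : ℕ) [NeZero M] [NeZero q] (hq : q.Prime)
    (h : Fermat.Agent.H82.SS.ModelSecondDiffGenStatement M q)
    (K₁ : Type) [Field K₁] [Algebra ℚ K₁] [FiniteDimensional ℚ K₁] (ι : K₁ →+* QBar)
    (A : ValuationSubring QBar) (hA : A.LiesOverPrime q)
    (σ : QBar ≃ₐ[ℚ] QBar) (hσ : σ ∈ A.inertiaSubgroupIn ℚ)
    (σ₁ : K₁ ≃ₐ[ℚ] K₁) (hσ₁ : ∀ c : K₁, ι (σ₁ c) = σ (ι c))
    (m : ℕ) (hm : 0 < m) (hqm : ¬ q ∣ m) (hζ : ∃ ζ : K₁, IsPrimitiveRoot ζ m)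
    (f₁ : ModelField K₁ (M * q)) (hf₁ : f₁ ≠ 0)
    (hord : ∀ P : Place K₁ (ModelField K₁ (M * q)), (m : ℤ) ∣ P.ord f₁)
    (hrat : ∀ P : Place K₁ (ModelField K₁ (M * q)), P.ord f₁ ≠ 0 →
      Fermat.Agent.H82.SS.IsRationalPlace P)
    (hγ : ∃ γ : K₁, γ ^ m * (σ₁ (f₁ : LaurentSeries K₁).leadingCoeff) ^ 2 =
      σ₁ (σ₁ (f₁ : LaurentSeries K₁).leadingCoeff) * (f₁ : LaurentSeries K₁).leadingCoeff) :
    ∃ w : ModelField K₁ (M * q), w ^ m = modelSecondDiff (M * q) σ₁ f₁ := by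
  classical
  haveI hdvr : IsDiscreteValuationRing ↥(A.comap ι) :=
    Fermat.Agent.H34.modelDVR K₁ ι A q hq hA
  letI algE : Algebra ↥(A.comap ι) (ModelField K₁ (M * q)) :=
    ((algebraMap K₁ (ModelField K₁ (M * q))).comp (algebraMap ↥(A.comap ι) K₁)).toAlgebra
  haveI : IsScalarTower ↥(A.comap ι) K₁ (ModelField K₁ (M * q)) :=
    IsScalarTower.of_algebraMap_eq (fun _ => rfl)
  -- `q` is not a unit
  have hq' : ¬ IsUnit ((q : ℕ) : ↥(A.comap ι)) := by
    have h1 : ((q : ℕ) : ↥(A.comap ι)) = ⟨(q : K₁), by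
        rw [ValuationSubring.mem_comap, map_natCast]; exact natCast_mem A q⟩ :=
      Subtype.ext (by simp)
    rw [h1, isUnit_comap_iff, valuationSubring_isUnit_iff]
    rintro ⟨h0, hinv⟩
    have h2 : ((q : ℕ) : QBar) ∈ A.nonunits := hA
    rw [ValuationSubring.mem_nonunits_iff_exists_mem_maximalIdeal] at h2
    obtain ⟨hmem, hmax⟩ := h2
    rw [IsLocalRing.mem_maximalIdeal, mem_nonunits_iff] at hmax
    apply hmax
    rw [valuationSubring_isUnit_iff]
    refine ⟨?_, ?_⟩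
    · simpa using h0
    · simpa using hinv
  -- `m` is a unit
  have hmA : IsUnit ((m : ℕ) : ↥(A.comap ι)) := by
    by_contra hmu
    have hcop : Nat.Coprime q m := (Nat.Prime.coprime_iff_not_dvd hq).mpr hqm
    have hcopZ : IsCoprime (q : ℤ) (m : ℤ) := Nat.isCoprime_iff_coprime.mpr hcop
    obtain ⟨u, v, huv⟩ := hcopZ
    have h1 : ((q : ℕ) : ↥(A.comap ι)) ∈ IsLocalRing.maximalIdeal ↥(A.comap ι) := by
      rw [IsLocalRing.mem_maximalIdeal, mem_nonunits_iff]; exact hq'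
    have h2 : ((m : ℕ) : ↥(A.comap ι)) ∈ IsLocalRing.maximalIdeal ↥(A.comap ι) := by
      rw [IsLocalRing.mem_maximalIdeal, mem_nonunits_iff]; exact hmu
    have h3 : (1 : ↥(A.comap ι)) ∈ IsLocalRing.maximalIdeal ↥(A.comap ι) := by
      have h4 : ((u : ↥(A.comap ι)) * ((q : ℕ) : ↥(A.comap ι))
          + (v : ↥(A.comap ι)) * ((m : ℕ) : ↥(A.comap ι))) = 1 := by
        have := congrArg (fun z : ℤ => (z : ↥(A.comap ι))) huv
        simpa using this
      rw [← h4]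
      exact Ideal.add_mem _ (Ideal.mul_mem_left _ _ h1) (Ideal.mul_mem_left _ _ h2)
    exact (Ideal.ne_top_iff_one _).mp (IsLocalRing.maximalIdeal.isMaximal _).ne_top h3
  have hfL : (f₁ : LaurentSeries K₁) ≠ 0 := fun h => hf₁ (Subtype.ext h)
  have hl0 : (f₁ : LaurentSeries K₁).leadingCoeff ≠ 0 := HahnSeries.leadingCoeff_ne_zero.mpr hfL
  have hσl0 : σ₁ (f₁ : LaurentSeries K₁).leadingCoeff ≠ 0 := by
    rwa [Ne, EmbeddingLike.map_eq_zero_iff]
  have hγ' : ∃ γ : K₁, γ ^ m =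
      ((Fermat.Agent.H82.SS.secondDiff (Fermat.Agent.H82.SS.modelSigma K₁ (M * q) σ₁) f₁ :
        ModelField K₁ (M * q)) : LaurentSeries K₁).leadingCoeff := by
    obtain ⟨γ, hγ⟩ := hγ
    refine ⟨γ, ?_⟩
    rw [secondDiff_modelSigma]
    have h1 := leadingCoeff_modelSecondDiff (M * q) σ₁ hf₁
    rw [← hγ] at h1
    exact (mul_right_cancel₀ (pow_ne_zero 2 hσl0) h1).symm
  obtain ⟨w, hw⟩ := h K₁ ↥(A.comap ι) hq' σ₁ (isModelInertia_comap ι A σ hσ σ₁ hσ₁) m hm hmA hζ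
    f₁ hf₁ hord hrat hγ'
  exact ⟨w, hw.trans (secondDiff_modelSigma (M * q) σ₁ f₁)⟩

end StepB

/-- **SSH-12 (contract form)**: the second difference statement at level `M q` from helper82's
model-level statement. -/
theorem secondDifference_of_modelGen (M q : ℕ) [NeZero M] [NeZero q] (hq : q.Prime)
    (h : Fermat.Agent.H82.SS.ModelSecondDiffGenStatement M q) :
    SecondDifferenceStatement (M * q) q := by
  classical
  intro A hA σ hσ m hm hqm f hf hord
  -- number-field descent of `f`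
  have h1mem : (1 : LaurentSeries QBar) ∈ modularFunctionFieldBar (M * q) := one_mem _
  obtain ⟨K₀, hK₀fin, hD⟩ := klDescent (M * q) (f : LaurentSeries QBar) 1 f.2 h1mem m (by
    intro P
    have e1 : (⟨(1 : LaurentSeries QBar), h1mem⟩ : ↥(modularFunctionFieldBar (M * q))) = 1 := rfl
    rw [e1, Place.ord_one, sub_zero]
    exact hord P)
  -- the field over which the support of `div f` is rational
  obtain ⟨K₀', hK₀'fin, hR⟩ := exists_field_rational_support_modular (M * q) f hf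
  haveI : NeZero ((m : ℕ) : ℚ) := ⟨Nat.cast_ne_zero.mpr hm.ne'⟩
  obtain ⟨ζm, hζm⟩ := HasEnoughRootsOfUnity.exists_primitiveRoot QBar m
  have hfL : (f : LaurentSeries QBar) ≠ 0 := fun h => hf (Subtype.ext h)
  set l₀ : QBar := (f : LaurentSeries QBar).leadingCoeff with hl₀
  have hl0 : l₀ ≠ 0 := HahnSeries.leadingCoeff_ne_zero.mpr hfL
  have hσl0 : σ l₀ ≠ 0 := by rwa [Ne, EmbeddingLike.map_eq_zero_iff]
  obtain ⟨γ₀, hγ₀⟩ : ∃ γ₀ : QBar, γ₀ ^ m * (σ l₀) ^ 2 = σ (σ l₀) * l₀ := by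
    obtain ⟨z, hz⟩ := IsAlgClosed.exists_pow_nat_eq (σ (σ l₀) * l₀ / (σ l₀) ^ 2) hm
    exact ⟨z, by rw [hz, div_mul_cancel₀ _ (pow_ne_zero 2 hσl0)]⟩
  let K' : IntermediateField ℚ QBar :=
    K₀ ⊔ K₀' ⊔ IntermediateField.adjoin ℚ ({ζm, γ₀} : Set QBar)
  haveI : FiniteDimensional ℚ ↥K₀ := hK₀fin
  haveI : FiniteDimensional ℚ ↥K₀' := hK₀'fin
  have halg : Algebra.IsAlgebraic ℚ QBar := AlgebraicClosure.isAlgebraic ℚ
  haveI : FiniteDimensional ℚ ↥(IntermediateField.adjoin ℚ ({ζm, γ₀} : Set QBar)) :=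
    IntermediateField.finiteDimensional_adjoin
      (fun x _ => (Algebra.IsAlgebraic.isAlgebraic (R := ℚ) x).isIntegral)
  haveI : FiniteDimensional ℚ ↥(K₀ ⊔ K₀') := IntermediateField.finiteDimensional_sup _ _
  haveI : FiniteDimensional ℚ ↥K' := IntermediateField.finiteDimensional_sup _ _
  let K : IntermediateField ℚ QBar := IntermediateField.normalClosure ℚ ↥K' QBar
  haveI hcl : IsAlgClosure ℚ (AlgebraicClosure ℚ) := ⟨inferInstance, inferInstance⟩
  haveI hnorm : Normal ℚ (AlgebraicClosure ℚ) := IsAlgClosure.normal ℚ (AlgebraicClosure ℚ)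
  haveI : Normal ℚ ↥K := normalClosure.normal ℚ ↥K' QBar
  haveI : FiniteDimensional ℚ ↥K := normalClosure.is_finiteDimensional ℚ ↥K' QBar
  have hK'K : K' ≤ K := IntermediateField.le_normalClosure K'
  have hrange : ∀ c ∈ K, c ∈ (algebraMap ↥K QBar).range := fun c hc => ⟨⟨c, hc⟩, rfl⟩
  have hadj : ∀ c ∈ ({ζm, γ₀} : Set QBar), c ∈ K := fun c hc =>
    hK'K ((le_sup_right : IntermediateField.adjoin ℚ ({ζm, γ₀} : Set QBar) ≤ K')
      (IntermediateField.subset_adjoin ℚ _ hc))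
  have hK₀ : ∀ c ∈ K₀, c ∈ (algebraMap ↥K QBar).range := fun c hc =>
    hrange c (hK'K ((le_sup_left : K₀ ⊔ K₀' ≤ K') ((le_sup_left : K₀ ≤ K₀ ⊔ K₀') hc)))
  have hK₀' : K₀' ≤ K := fun c hc =>
    hK'K ((le_sup_left : K₀ ⊔ K₀' ≤ K') ((le_sup_right : K₀' ≤ K₀ ⊔ K₀') hc))
  -- the restriction of `σ`
  let σ₁ : ↥K ≃ₐ[ℚ] ↥K := σ.restrictNormal ↥K
  have hσ₁ : ∀ c : ↥K, algebraMap ↥K QBar (σ₁ c) = σ (algebraMap ↥K QBar c) := fun c =>
    AlgEquiv.restrictNormal_commutes σ ↥K c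
  -- the descended function
  obtain ⟨a₁, b₁, ha₁, hb₁, haa, hbb, hord₁⟩ := hD ↥K (algebraMap ↥K QBar) hK₀
  have hb1 : b₁ = 1 := by
    have h2 : coeffMap (algebraMap ↥K QBar) (b₁ - 1) = 0 := by
      rw [map_sub, hbb, map_one, sub_self]
    have h3 := (coeffMap_eq_zero_iff (algebraMap ↥K QBar) (algebraMap ↥K QBar).injective _).mp h2
    exact sub_eq_zero.mp h3
  subst hb1
  let f₁ : ModelField ↥K (M * q) := ⟨a₁, ha₁⟩
  have hf₁f : klBc (algebraMap ↥K QBar) (modularFunctionFieldFull (M * q)) f₁ = f :=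
    Subtype.ext haa
  have hf₁0 : f₁ ≠ 0 := by
    intro h0
    apply hf
    rw [← hf₁f, h0, map_zero]
  have hord₁' : ∀ P₁ : Place ↥K (ModelField ↥K (M * q)), (m : ℤ) ∣ P₁.ord f₁ := by
    intro P₁
    have := hord₁ P₁
    have e1 : (⟨(1 : LaurentSeries ↥K), hb₁⟩ :
        ↥(laurentBaseChange ↥K (modularFunctionFieldFull (M * q)))) = 1 := rfl
    rw [e1, Place.ord_one, sub_zero] at this
    exact this
  have hrat : ∀ P₁ : Place ↥K (ModelField ↥K (M * q)), P₁.ord f₁ ≠ 0 →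
      Fermat.Agent.H82.SS.IsRationalPlace P₁ := fun P₁ hP₁ =>
    hR K hK₀' f₁ hf₁f P₁ hP₁
  -- roots of unity and the root of the leading coefficient
  obtain ⟨zm, hzm⟩ := hrange ζm (hadj ζm (by simp))
  obtain ⟨g, hg⟩ := hrange γ₀ (hadj γ₀ (by simp))
  have hzm' : IsPrimitiveRoot zm m :=
    IsPrimitiveRoot.of_map_of_injective (hzm ▸ hζm) (algebraMap ↥K QBar).injective
  have hlc : algebraMap ↥K QBar (f₁ : LaurentSeries ↥K).leadingCoeff = l₀ := by
    rw [hl₀, ← haa, leadingCoeff_coeffMap _ (algebraMap ↥K QBar).injective]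
  have hγ : ∃ γ : ↥K, γ ^ m * (σ₁ (f₁ : LaurentSeries ↥K).leadingCoeff) ^ 2 =
      σ₁ (σ₁ (f₁ : LaurentSeries ↥K).leadingCoeff) * (f₁ : LaurentSeries ↥K).leadingCoeff := by
    refine ⟨g, (algebraMap ↥K QBar).injective ?_⟩
    rw [map_mul, map_pow, map_pow, map_mul, hσ₁, hσ₁, hσ₁, hlc, hg]
    exact hγ₀
  obtain ⟨w₀, hw₀⟩ := ssAsm_stepB_gen M q hq h ↥K (algebraMap ↥K QBar) A hA σ hσ σ₁ hσ₁
    m hm hqm ⟨zm, hzm'⟩ f₁ hf₁0 hord₁' hrat hγ
  refine ⟨klBc (algebraMap ↥K QBar) (modularFunctionFieldFull (M * q)) w₀, ?_⟩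
  have h := congrArg (klBc (algebraMap ↥K QBar) (modularFunctionFieldFull (M * q))) hw₀
  rw [map_pow, klBc_modelSecondDiff (M * q) _ σ σ₁ hσ₁, hf₁f] at h
  rw [h]
  have hgf0 : arithmeticGalois (modularFunctionFieldFull (M * q)) σ • f ≠ 0 := by simpa using hf
  exact div_mul_cancel₀ _ (pow_ne_zero 2 hgf0)

end Fermat.Agent.H70.SS
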