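import Fermat.Agent.H93.KL.DescFinal
import Fermat.Agent.H23.PlaceBasic

/-!
# P-SS / SSH-12 (row 653), part 2 : rationality of the descended places (helper70)

Generic in the level field `F₀ : IntermediateField ℚ (LaurentSeries ℚ)`; write
`F_K = laurentBaseChange K F₀` and `F = F_{ℚ̄}`.

* `arithmeticGalois_smul_klBc` : a function with coefficients in `K₁` is fixed by the
  automorphisms of `ℚ̄` fixing the image of `K₁`.
* `exists_field_fixing` : every `h ∈ F` is fixed by the automorphisms fixing a number field.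
* `exists_field_separating` : for a finite set `S` of places of `F` there is a number field `K₀`
  such that an automorphism fixing `K₀` cannot move a place of `S` to another place of `S`.
* `exists_field_fixing_support` : for `f` with finite support there is a number field `K₀` such
  that the automorphisms fixing `K₀` fix every place in the support of `div f`.
* `rational_of_fixed` : a place `P₁` of `F_K / K` lying under a place `P` of degree one of `F`
  which is fixed by `Gal(ℚ̄ / K)` is `K`-rational (every element of its valuation ring is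
  congruent to a constant of `K`).
* `exists_field_rational_support` : for `f` with finite support, all places of `F` of degree one:
  there is a number field `K₀` such that over every intermediate field `K ⊇ K₀` the places in the
  support of (a descent of) `f` are `K`-rational.
-/

set_option autoImplicit false
set_option linter.style.haveILetI false

noncomputable section

namespace Fermat.Agent.H70.SS

open ModularCurve AlgebraicCurve Fermat.Agent.H93.KL

section Generic

variable (F₀ : IntermediateField ℚ (LaurentSeries ℚ))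

/-- `ℚ̄ / ℚ` is Galois (for the algebra instance used by the prelude). -/
theorem ratPlace_isGalois : IsGalois ℚ QBar := by
  have h : (AlgebraicClosure.instAlgebra ℚ : Algebra ℚ (AlgebraicClosure ℚ)) =
      DivisionRing.toRatAlgebra := Subsingleton.elim _ _
  rw [← h]
  infer_instance

/-- A function with coefficients in `K₁` is fixed by the automorphisms fixing `ι K₁`. -/
theorem arithmeticGalois_smul_klBc {K₁ : Type} [Field K₁] [Algebra ℚ K₁] (ι : K₁ →+* QBar)
    (τ : QBar ≃ₐ[ℚ] QBar) (hτ : ∀ c : K₁, τ (ι c) = ι c) (g : ↥(laurentBaseChange K₁ F₀)) :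
    arithmeticGalois F₀ τ • klBc ι F₀ g = klBc ι F₀ g := by
  apply Subtype.ext
  rw [coe_arithmeticGalois_smul, klBc_coe, coeffMap_coeffMap]
  exact coeffMap_congr (RingHom.ext fun c => hτ c) _

/-- Base change of a constant. -/
theorem klBc_algebraMap {K₁ : Type} [Field K₁] [Algebra ℚ K₁] (ι : K₁ →+* QBar) (c : K₁) :
    klBc ι F₀ (algebraMap K₁ ↥(laurentBaseChange K₁ F₀) c) =
      algebraMap QBar ↥(laurentBaseChange QBar F₀) (ι c) := by
  apply Subtype.ext
  rw [klBc_coe]
  show coeffMap ι (algebraMap K₁ (LaurentSeries K₁) c) = algebraMap QBar (LaurentSeries QBar) (ι c)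
  rw [algebraMap_laurentSeries_eq_single, algebraMap_laurentSeries_eq_single, coeffMap_single]

/-- Every function is fixed by the automorphisms fixing a suitable number field. -/
theorem exists_field_fixing (h : ↥(laurentBaseChange QBar F₀)) :
    ∃ K₀ : IntermediateField ℚ QBar, FiniteDimensional ℚ ↥K₀ ∧
      ∀ τ : QBar ≃ₐ[ℚ] QBar, (∀ c ∈ K₀, τ c = c) → arithmeticGalois F₀ τ • h = h := by
  obtain ⟨K₀, hfin, hK₀⟩ := coeffDescentFinal F₀ (h : LaurentSeries QBar) h.2
  refine ⟨K₀, hfin, fun τ hτ => ?_⟩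
  obtain ⟨h₁, hh₁, hh⟩ := hK₀ ↥K₀ (algebraMap ↥K₀ QBar) (fun c hc => ⟨⟨c, hc⟩, rfl⟩)
  have e : h = klBc (algebraMap ↥K₀ QBar) F₀ ⟨h₁, hh₁⟩ := Subtype.ext hh.symm
  rw [e]
  exact arithmeticGalois_smul_klBc F₀ _ τ (fun c => hτ _ c.2) _

/-- **Separation.**  For a finite set `S` of places there is a number field `K₀` such that an
automorphism fixing `K₀` cannot move a place of `S` to a different place of `S`. -/
theorem exists_field_separating (S : Set (Place QBar ↥(laurentBaseChange QBar F₀)))
    (hS : S.Finite) :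
    ∃ K₀ : IntermediateField ℚ QBar, FiniteDimensional ℚ ↥K₀ ∧
      ∀ τ : QBar ≃ₐ[ℚ] QBar, (∀ c ∈ K₀, τ c = c) →
        ∀ P ∈ S, arithmeticGalois F₀ τ • P ∈ S → arithmeticGalois F₀ τ • P = P := by
  classical
  have key : ∀ p : Place QBar ↥(laurentBaseChange QBar F₀) ×
      Place QBar ↥(laurentBaseChange QBar F₀),
      ∃ K₀ : IntermediateField ℚ QBar, FiniteDimensional ℚ ↥K₀ ∧
        ∀ τ : QBar ≃ₐ[ℚ] QBar, (∀ c ∈ K₀, τ c = c) →
          arithmeticGalois F₀ τ • p.1 = p.2 → p.1 = p.2 := by
    intro p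
    by_cases hpq : p.1 = p.2
    · exact ⟨⊥, inferInstance, fun _ _ _ => hpq⟩
    · have hsep : ∃ h : ↥(laurentBaseChange QBar F₀), 0 ≤ p.1.ord h ∧ ¬ 0 ≤ p.2.ord h := by
        by_contra hcon
        simp only [not_exists, not_and, not_not] at hcon
        exact hpq (Fermat.Agent.H23.place_ext_of_ord p.1 p.2 hcon)
      obtain ⟨h, h1, h2⟩ := hsep
      obtain ⟨K₀, hfin, hK₀⟩ := exists_field_fixing F₀ h
      refine ⟨K₀, hfin, fun τ hτ hτp => ?_⟩
      exfalso
      apply h2
      have h3 := SemilinearAut.ord_smul (arithmeticGalois F₀ τ) p.1 h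
      rw [hK₀ τ hτ, hτp] at h3
      rw [h3]
      exact h1
  choose K hKfin hK using key
  haveI := hKfin
  refine ⟨⨆ p ∈ (hS.toFinset ×ˢ hS.toFinset), K p,
    IntermediateField.finiteDimensional_iSup_of_finset, ?_⟩
  intro τ hτ P hP hτP
  have hle : K (P, arithmeticGalois F₀ τ • P) ≤ ⨆ p ∈ (hS.toFinset ×ˢ hS.toFinset), K p := by
    refine le_iSup₂_of_le (P, arithmeticGalois F₀ τ • P) ?_ le_rfl
    simp [hP, hτP]
  exact (hK (P, arithmeticGalois F₀ τ • P) τ (fun c hc => hτ c (hle hc)) rfl).symm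

/-- For `f` with finite support there is a number field `K₀` such that the automorphisms fixing
`K₀` fix every place in the support of `div f`. -/
theorem exists_field_fixing_support (f : ↥(laurentBaseChange QBar F₀))
    (hfin : {P : Place QBar ↥(laurentBaseChange QBar F₀) | P.ord f ≠ 0}.Finite) :
    ∃ K₀ : IntermediateField ℚ QBar, FiniteDimensional ℚ ↥K₀ ∧
      ∀ τ : QBar ≃ₐ[ℚ] QBar, (∀ c ∈ K₀, τ c = c) →
        ∀ P : Place QBar ↥(laurentBaseChange QBar F₀), P.ord f ≠ 0 →
          arithmeticGalois F₀ τ • P = P := by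
  obtain ⟨K₁, hK₁fin, hK₁⟩ := exists_field_fixing F₀ f
  obtain ⟨K₂, hK₂fin, hK₂⟩ := exists_field_separating F₀ _ hfin
  haveI := hK₁fin
  haveI := hK₂fin
  refine ⟨K₁ ⊔ K₂, IntermediateField.finiteDimensional_sup K₁ K₂, fun τ hτ P hP => ?_⟩
  have h1 := hK₁ τ (fun c hc => hτ c ((le_sup_left : K₁ ≤ K₁ ⊔ K₂) hc))
  refine hK₂ τ (fun c hc => hτ c ((le_sup_right : K₂ ≤ K₁ ⊔ K₂) hc)) P hP ?_
  show (arithmeticGalois F₀ τ • P).ord f ≠ 0
  have h3 := SemilinearAut.ord_smul (arithmeticGalois F₀ τ) P f
  rw [h1] at h3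
  rw [h3]
  exact hP

/-- **Rationality.**  A place `P₁` of `F_K / K` lying under a place `P` of degree one of
`F_{ℚ̄} / ℚ̄` fixed by `Gal(ℚ̄ / K)` is `K`-rational. -/
theorem rational_of_fixed (K : IntermediateField ℚ QBar)
    (P : Place QBar ↥(laurentBaseChange QBar F₀)) (hdeg : P.deg = 1)
    (hfix : ∀ τ : QBar ≃ₐ[ℚ] QBar, (∀ c ∈ K, τ c = c) → arithmeticGalois F₀ τ • P = P)
    (P₁ : Place ↥K ↥(laurentBaseChange ↥K F₀))
    (hP : ∀ g : ↥(laurentBaseChange ↥K F₀),
      P.ord (klBc (algebraMap ↥K QBar) F₀ g) = P₁.ord g)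
    (z : ↥(laurentBaseChange ↥K F₀)) (hz : z ∈ P₁.toValuationSubring) :
    ∃ c : ↥K, z - algebraMap ↥K ↥(laurentBaseChange ↥K F₀) c ∈
      P₁.toValuationSubring.nonunits := by
  classical
  have hinj : Function.Injective (klBc (algebraMap ↥K QBar) F₀) :=
    (klBc (algebraMap ↥K QBar) F₀).injective
  have hz' := (Fermat.Agent.H23.mem_iff_ord P₁).mp hz
  have hZ : klBc (algebraMap ↥K QBar) F₀ z = 0 ∨
      0 ≤ P.ord (klBc (algebraMap ↥K QBar) F₀ z) := by
    rcases hz' with h | h
    · left
      rw [h, map_zero]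
    · right
      rw [hP]
      exact h
  obtain ⟨c', hc'⟩ := Fermat.Agent.H23.exists_const_ord_sub_pos P hdeg hZ
  -- the constant is fixed by `Gal(ℚ̄ / K)`
  have hfixed : ∀ τ : QBar ≃ₐ[ℚ] QBar, (∀ c ∈ K, τ c = c) → τ c' = c' := by
    intro τ hτ
    have hgZ : arithmeticGalois F₀ τ • klBc (algebraMap ↥K QBar) F₀ z
        = klBc (algebraMap ↥K QBar) F₀ z :=
      arithmeticGalois_smul_klBc F₀ _ τ (fun c => hτ _ c.2) z
    have hgc : arithmeticGalois F₀ τ • algebraMap QBar ↥(laurentBaseChange QBar F₀) c'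
        = algebraMap QBar ↥(laurentBaseChange QBar F₀) (τ c') :=
      SemilinearAut.smul_algebraMap (arithmeticGalois F₀ τ) c'
    have hainj : Function.Injective (algebraMap QBar ↥(laurentBaseChange QBar F₀)) :=
      (algebraMap QBar ↥(laurentBaseChange QBar F₀)).injective
    rcases hc' with h | h
    · have h2 := congrArg (fun y => arithmeticGalois F₀ τ • y) h
      simp only [hgZ, hgc] at h2
      rw [h] at h2
      exact (hainj h2).symm
    · have h3 := SemilinearAut.ord_smul (arithmeticGalois F₀ τ) P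
        (klBc (algebraMap ↥K QBar) F₀ z - algebraMap QBar ↥(laurentBaseChange QBar F₀) c')
      rw [hfix τ hτ, smul_sub, hgZ, hgc] at h3
      by_contra hne
      have hd : algebraMap QBar ↥(laurentBaseChange QBar F₀) (τ c' - c') ≠ 0 := by
        intro h0
        apply hne
        have := hainj (h0.trans (map_zero _).symm)
        exact sub_eq_zero.mp this
      have hsum : (klBc (algebraMap ↥K QBar) F₀ z
            - algebraMap QBar ↥(laurentBaseChange QBar F₀) c')
          + -(klBc (algebraMap ↥K QBar) F₀ z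
            - algebraMap QBar ↥(laurentBaseChange QBar F₀) (τ c'))
          = algebraMap QBar ↥(laurentBaseChange QBar F₀) (τ c' - c') := by
        rw [map_sub]
        ring
      have h4 : (1 : ℤ) ≤ P.ord (algebraMap QBar ↥(laurentBaseChange QBar F₀) (τ c' - c')) := by
        rw [← hsum]
        refine Fermat.Agent.H23.ord_add_ge P (by rw [hsum]; exact hd) 1 (Or.inr h) (Or.inr ?_)
        rw [Fermat.Agent.H23.ord_neg, h3]
        exact h
      rw [Fermat.Agent.H23.ord_algebraMap] at h4
      exact absurd h4 (by norm_num)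
  -- hence lies in `K`
  have hmem : c' ∈ K := by
    haveI := ratPlace_isGalois
    rw [← InfiniteGalois.fixedField_fixingSubgroup K, IntermediateField.mem_fixedField_iff]
    intro τ hτ
    exact hfixed τ (fun c hc => (IntermediateField.mem_fixingSubgroup_iff K τ).mp hτ c hc)
  refine ⟨⟨c', hmem⟩, ?_⟩
  have hbc : klBc (algebraMap ↥K QBar) F₀
      (z - algebraMap ↥K ↥(laurentBaseChange ↥K F₀) ⟨c', hmem⟩)
      = klBc (algebraMap ↥K QBar) F₀ z - algebraMap QBar ↥(laurentBaseChange QBar F₀) c' := by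
    rw [map_sub, klBc_algebraMap]
    rfl
  have hmemV : z - algebraMap ↥K ↥(laurentBaseChange ↥K F₀) ⟨c', hmem⟩ ∈
      P₁.toValuationSubring :=
    P₁.toValuationSubring.sub_mem hz (P₁.algebraMap_mem' _)
  rw [ValuationSubring.mem_nonunits_iff_exists_mem_maximalIdeal]
  refine ⟨hmemV, ?_⟩
  rw [Fermat.Agent.H23.mem_maximalIdeal_iff_ord]
  rcases hc' with h | h
  · left
    apply hinj
    rw [hbc, map_zero, h, sub_self]
  · right
    show 0 < P₁.ord (z - algebraMap ↥K ↥(laurentBaseChange ↥K F₀) ⟨c', hmem⟩)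
    rw [← hP, hbc]
    exact h

/-- **Rational support after a finite extension.**  If all places of `F_{ℚ̄}` have degree one
and `f` has finite support, there is a number field `K₀` such that over every intermediate field
`K ⊇ K₀` every place of `F_K / K` at which (a descent of) `f` has nonzero order is
`K`-rational. -/
theorem exists_field_rational_support
    (hdeg : ∀ P : Place QBar ↥(laurentBaseChange QBar F₀), P.deg = 1)
    (f : ↥(laurentBaseChange QBar F₀))
    (hfin : {P : Place QBar ↥(laurentBaseChange QBar F₀) | P.ord f ≠ 0}.Finite) :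
    ∃ K₀ : IntermediateField ℚ QBar, FiniteDimensional ℚ ↥K₀ ∧
      ∀ K : IntermediateField ℚ QBar, K₀ ≤ K →
        ∀ f₁ : ↥(laurentBaseChange ↥K F₀), klBc (algebraMap ↥K QBar) F₀ f₁ = f →
          ∀ P₁ : Place ↥K ↥(laurentBaseChange ↥K F₀), P₁.ord f₁ ≠ 0 →
            ∀ z ∈ P₁.toValuationSubring,
              ∃ c : ↥K, z - algebraMap ↥K ↥(laurentBaseChange ↥K F₀) c ∈
                P₁.toValuationSubring.nonunits := by
  obtain ⟨K₀, hK₀fin, hK₀⟩ := exists_field_fixing_support F₀ f hfin
  refine ⟨K₀, hK₀fin, fun K hK f₁ hf₁ P₁ hP₁ z hz => ?_⟩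
  obtain ⟨P, hP⟩ := placeDescent F₀ ↥K (algebraMap ↥K QBar) P₁
  have hPf : P.ord f ≠ 0 := by
    rw [← hf₁, hP]
    exact hP₁
  exact rational_of_fixed F₀ K P (hdeg P)
    (fun τ hτ => hK₀ τ (fun c hc => hτ c (hK hc)) P hPf) P₁ hP z hz

end Generic

end Fermat.Agent.H70.SS
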